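import Fermat.Prelude.Def_AlgebraicGeometry_RelativePicardFunctor

/-!
The two-chart model of a pointed curve used to construct its Jacobian: the affine open `C0 = C - ε`,
an affine neighbourhood `C1` of `ε` with an equation `t` for `ε`, and expansions in `z = t`.
-/

set_option autoImplicit false

noncomputable section

open CategoryTheory AlgebraicGeometry TopologicalSpace Opposite NeronModelInfra
open scoped TensorProduct

namespace Fermat.Agent.Jac

universe u

variable {k : Type u} [Field k] {C : Scheme.{u}}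

/-- The structure map of functions on an open of a `k`-scheme. -/
def structureHom (c : C ⟶ Spec (CommRingCat.of k)) (U : C.Opens) : k →+* Γ(C, U) :=
  ((Scheme.ΓSpecIso (CommRingCat.of k)).inv ≫ c.appLE ⊤ U (fun _ _ => trivial)).hom

/-- Functions on an open of a `k`-scheme as a `k`-algebra. -/
@[reducible] def openAlgebra (c : C ⟶ Spec (CommRingCat.of k)) (U : C.Opens) : Algebra k Γ(C, U) :=
  (structureHom c U).toAlgebra

/-- Two-chart data for a pointed curve. -/
structure CurveModel (c : C ⟶ Spec (CommRingCat.of k))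
    (ε : SchemeHomOver (𝟙 (Spec (CommRingCat.of k))) c) where
  C0 : C.Opens
  C1 : C.Opens
  affine0 : IsAffineOpen C0
  affine1 : IsAffineOpen C1
  coe_C0 : (C0 : Set C) = (Set.range ε.1)ᶜ
  eps_mem : (⊤ : (Spec (CommRingCat.of k)).Opens) ≤ ε.1 ⁻¹ᵁ C1
  t : Γ(C, C1)
  basicOpen_t : C.basicOpen t = C0 ⊓ C1
  exp0 : Γ(C, C0) →+* LaurentSeries k
  exp1 : Γ(C, C1) →+* PowerSeries k
  exp01 : Γ(C, C0 ⊓ C1) →+* LaurentSeries k
  exp01_res0 : ∀ f : Γ(C, C0),
    exp01 (C.presheaf.map (homOfLE (inf_le_left : C0 ⊓ C1 ≤ C0)).op f) = exp0 f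
  exp01_res1 : ∀ f : Γ(C, C1),
    exp01 (C.presheaf.map (homOfLE (inf_le_right : C0 ⊓ C1 ≤ C1)).op f) =
      HahnSeries.ofPowerSeries ℤ k (exp1 f)
  exp0_const : ∀ a : k, exp0 (structureHom c C0 a) = HahnSeries.C a
  exp1_const : ∀ a : k, exp1 (structureHom c C1 a) = PowerSeries.C a
  exp0_injective : Function.Injective exp0
  exp1_injective : Function.Injective exp1
  exp1_t : exp1 t = PowerSeries.X
  constantCoeff_exp1 : ∀ f : Γ(C, C1), PowerSeries.constantCoeff (exp1 f) =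
    (Scheme.ΓSpecIso (CommRingCat.of k)).hom (ε.1.appLE C1 ⊤ eps_mem f)
  t_dvd : ∀ f : Γ(C, C1), PowerSeries.constantCoeff (exp1 f) = 0 → t ∣ f
  const_of_no_pole : ∀ f : Γ(C, C0), (∀ i : ℤ, i < 0 → (exp0 f).coeff i = 0) →
    ∃ a : k, f = structureHom c C0 a
  exists_pole : ∃ n₀ : ℕ, ∀ n : ℕ, n₀ ≤ n → ∃ f : Γ(C, C0),
    (exp0 f).coeff (-(n : ℤ)) = 1 ∧ ∀ i : ℤ, i < -(n : ℤ) → (exp0 f).coeff i = 0
  finiteType : letI := openAlgebra c C0; Algebra.FiniteType k Γ(C, C0)
  dedekind : ∀ (K : Type u) [Field K] [Algebra k K],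
    letI := openAlgebra c C0; IsDedekindDomain (K ⊗[k] Γ(C, C0))

end Fermat.Agent.Jac
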