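import Mathlib

/-!
Restriction maps of the structure sheaf, extensionality and gluing in elementwise form.
-/

set_option autoImplicit false

noncomputable section

open CategoryTheory AlgebraicGeometry TopologicalSpace Opposite

namespace Fermat.Agent.Jac

universe u w

variable {X Y Z : Scheme.{u}}

/-- Restriction of functions. -/
def res {V W : X.Opens} (h : V ≤ W) : Γ(X, W) →+* Γ(X, V) :=
  (X.presheaf.map (homOfLE h).op).hom

@[simp] theorem res_self {V : X.Opens} (h : V ≤ V) (a : Γ(X, V)) : res h a = a := by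
  change (X.presheaf.map (𝟙 (op V))) a = a
  simp

@[simp] theorem res_res {U V W : X.Opens} (h : U ≤ V) (h' : V ≤ W) (a : Γ(X, W)) :
    res h (res h' a) = res (h.trans h') a := by
  change (X.presheaf.map (homOfLE h').op ≫ X.presheaf.map (homOfLE h).op) a = _
  rw [← Functor.map_comp]
  rfl

/-- Pullback of functions along a morphism. -/
def appLEHom (f : X ⟶ Y) {U : Y.Opens} {V : X.Opens} (h : V ≤ f ⁻¹ᵁ U) : Γ(Y, U) →+* Γ(X, V) :=
  (f.appLE U V h).hom

@[simp] theorem res_appLEHom (f : X ⟶ Y) {U : Y.Opens} {V V' : X.Opens} (h : V ≤ f ⁻¹ᵁ U)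
    (h' : V' ≤ V) (a : Γ(Y, U)) :
    res h' (appLEHom f h a) = appLEHom f (h'.trans h) a :=
  ConcreteCategory.congr_hom (Scheme.Hom.appLE_map f h (homOfLE h').op) a

@[simp] theorem appLEHom_res (f : X ⟶ Y) {U U' : Y.Opens} {V : X.Opens} (h : V ≤ f ⁻¹ᵁ U)
    (h' : U ≤ U') (a : Γ(Y, U')) :
    appLEHom f h (res h' a) = appLEHom f (h.trans (f.preimage_mono h')) a :=
  ConcreteCategory.congr_hom (Scheme.Hom.map_appLE f h (homOfLE h').op) a

theorem appLEHom_appLEHom (f : X ⟶ Y) (g : Y ⟶ Z) {U : Z.Opens} {V : Y.Opens} {W : X.Opens}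
    (h : W ≤ f ⁻¹ᵁ V) (h' : V ≤ g ⁻¹ᵁ U) (a : Γ(Z, U)) :
    appLEHom f h (appLEHom g h' a) =
      appLEHom (f ≫ g) (h.trans (f.preimage_mono h')) a :=
  ConcreteCategory.congr_hom (Scheme.Hom.appLE_comp_appLE f g U V W h' h) a

theorem appLEHom_congr {f g : X ⟶ Y} (e : f = g) {U : Y.Opens} {V : X.Opens} (h : V ≤ f ⁻¹ᵁ U)
    (a : Γ(Y, U)) : appLEHom f h a = appLEHom g (e ▸ h) a := by
  subst e; rfl

theorem appLEHom_id {U V : X.Opens} (h : V ≤ (𝟙 X : X ⟶ X) ⁻¹ᵁ U) (a : Γ(X, U)) :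
    appLEHom (𝟙 X) h a = res (show V ≤ U from h) a :=
  ConcreteCategory.congr_hom (by simp [Scheme.Hom.appLE]; rfl) a

/-- Two functions agreeing on a cover are equal. -/
theorem sections_ext {ι : Type w} (U : ι → X.Opens) {V : X.Opens} (hV : V ≤ iSup U)
    {a b : Γ(X, V)} (h : ∀ i W (hW : W ≤ V), W ≤ U i → res hW a = res hW b) : a = b := by
  refine X.sheaf.eq_of_locally_eq' (fun i => V ⊓ U i) V (fun i => homOfLE inf_le_left) ?_ a b ?_
  · intro x hx
    obtain ⟨i, hi⟩ := Opens.mem_iSup.mp (hV hx)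
    exact Opens.mem_iSup.mpr ⟨i, hx, hi⟩
  · intro i
    exact h i _ inf_le_left inf_le_right

/-- Glue a compatible natural family of functions. -/
theorem sections_glue {ι : Type w} (U : ι → X.Opens) {V : X.Opens} (hV : V ≤ iSup U)
    (a : ∀ i W, W ≤ V → W ≤ U i → Γ(X, W))
    (nat : ∀ i W W' (h : W' ≤ W) (hW : W ≤ V) (hi : W ≤ U i),
      res h (a i W hW hi) = a i W' (h.trans hW) (h.trans hi))
    (compat : ∀ i j W (hW : W ≤ V) (hi : W ≤ U i) (hj : W ≤ U j), a i W hW hi = a j W hW hj) :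
    ∃! s : Γ(X, V), ∀ i W (hW : W ≤ V) (hi : W ≤ U i), res hW s = a i W hW hi := by
  have hcov : V ≤ ⨆ i, V ⊓ U i := by
    intro x hx
    obtain ⟨i, hi⟩ := Opens.mem_iSup.mp (hV hx)
    exact Opens.mem_iSup.mpr ⟨i, hx, hi⟩
  obtain ⟨s, hs, -⟩ := X.sheaf.existsUnique_gluing' (fun i => V ⊓ U i) V
    (fun i => homOfLE inf_le_left) hcov (fun i => a i _ inf_le_left inf_le_right) (by
      intro i j
      change res inf_le_left (a i _ _ _) = res inf_le_right (a j _ _ _)
      rw [nat, nat]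
      exact compat i j _ _ _ _)
  have key : ∀ i W (hW : W ≤ V) (hi : W ≤ U i), res hW s = a i W hW hi := by
    intro i W hW hi
    have h := congrArg (res (le_inf hW hi))
      (show res (inf_le_left : V ⊓ U i ≤ V) s = a i _ inf_le_left inf_le_right from hs i)
    erw [res_res, nat] at h
    exact h
  refine ⟨s, key, fun t ht => sections_ext U hV fun i W hW hi => ?_⟩
  rw [ht i W hW hi, key i W hW hi]

/-- Being a unit is local. -/
theorem isUnit_of_cover {ι : Type w} (U : ι → X.Opens) {V : X.Opens} (hV : V ≤ iSup U)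
    {a : Γ(X, V)} (h : ∀ i W (hW : W ≤ V), W ≤ U i → IsUnit (res hW a)) : IsUnit a := by
  obtain ⟨b, hb, -⟩ := sections_glue U hV (fun i W hW hi => ((h i W hW hi).unit⁻¹ : Γ(X, W)ˣ))
    (fun i W W' hle hW hi => by
      apply (h i W' (hle.trans hW) (hle.trans hi)).mul_left_cancel
      rw [IsUnit.mul_val_inv, ← res_res hle hW a, ← map_mul, IsUnit.mul_val_inv, map_one])
    (fun i j W hW hi hj => rfl)
  refine IsUnit.of_mul_eq_one b (sections_ext U hV fun i W hW hi => ?_)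
  rw [map_mul, hb i W hW hi, map_one, IsUnit.mul_val_inv]

end Fermat.Agent.Jac
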