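import Fermat.Agent.Jac.Geom.FrameExists

/-!
The Picard group of a point is trivial, so every class on the curve over a field is rigid.
-/

set_option autoImplicit false
set_option linter.unusedVariables false

noncomputable section

open CategoryTheory CategoryTheory.Limits AlgebraicGeometry TopologicalSpace Opposite NeronModelInfra
open AlgebraicGeometry.RelPicard

namespace Fermat.Agent.Jac

universe u

/-- A scheme with one point has trivial Picard group. -/
theorem Pic.eq_one_of_subsingleton {X : Scheme.{u}} [Subsingleton X] [Nonempty X] (p : Pic X) :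
    p = 1 := by
  induction p using Pic.ind with
  | h ι z =>
    obtain ⟨x⟩ := ‹Nonempty X›
    obtain ⟨i, hi⟩ := z.cover x
    rw [Pic.mk_eq_one_iff]
    exact ⟨Sec.gen z i ⊤ fun y _ => Subsingleton.elim x y ▸ hi, Sec.isGen_gen i _⟩

/-- The Picard group of a field is trivial. -/
theorem Pic_spec_field (K : Type u) [Field K] (p : Pic (Spec (CommRingCat.of K))) : p = 1 :=
  Pic.eq_one_of_subsingleton p

variable {k : Type u} [Field k] {C : Scheme.{u}} {c : C ⟶ Spec (CommRingCat.of k)}
  {ε : SchemeHomOver (𝟙 (Spec (CommRingCat.of k))) c} {M : CurveModel c ε}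

/-- Over a field every class is rigid. -/
theorem mem_rigidPic_field {K : Type u} [Field K] [Algebra k K] (ξ : Pic (curveOver c K)) :
    ξ ∈ rigidPic c ε (specAlg k K) :=
  mem_rigidPic.mpr (Pic_spec_field K _)

/-- Over a field every bundle has a frame. -/
theorem exists_frame_field (M : CurveModel c ε) {K : Type u} [Field K] [Algebra k K] {ι : Type u}
    (z : Cocycle (curveOver c K) ι) : Nonempty (Frame M z) :=
  Frame.exists_frame M z (Pic_spec_field K _)

end Fermat.Agent.Jac
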