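import Fermat.Agent.Jac.Rigid.Sheaf

/-!
Interface: a scheme carrying a universal rigidified Picard class of a pointed curve, and the
open piece of it whose rational points are effective of a fixed degree.
-/

set_option autoImplicit false
set_option linter.unusedVariables false

noncomputable section

open CategoryTheory CategoryTheory.Limits AlgebraicGeometry NeronModelInfra
open AlgebraicGeometry.RelPicard

namespace Fermat.Agent.Jac

universe u

variable {k : Type u} [Field k] {C : Scheme.{u}} (c : C ⟶ Spec (CommRingCat.of k))
  (ε : SchemeHomOver (𝟙 (Spec (CommRingCat.of k))) c)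

/-- A scheme representing rigidified Picard classes. -/
structure PicScheme : Type (u + 1) where
  P : Scheme.{u}
  toBase : P ⟶ Spec (CommRingCat.of k)
  univ : rigidPic c ε toBase
  bijective : ∀ {T : Scheme.{u}} (t : T ⟶ Spec (CommRingCat.of k)),
    Function.Bijective fun g : SchemeHomOver t toBase => rigidPicMap c ε g univ
  smooth : Smooth toBase

variable {c ε}

namespace PicScheme

variable (J : PicScheme c ε)

/-- The class of a morphism to the Picard scheme. -/
def classOf {T : Scheme.{u}} {t : T ⟶ Spec (CommRingCat.of k)} (g : SchemeHomOver t J.toBase) :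
    rigidPic c ε t := rigidPicMap c ε g J.univ

/-- The morphism classifying a class. -/
def homOf {T : Scheme.{u}} {t : T ⟶ Spec (CommRingCat.of k)} (ξ : rigidPic c ε t) :
    SchemeHomOver t J.toBase :=
  (Equiv.ofBijective _ (J.bijective t)).symm ξ

@[simp] theorem classOf_homOf {T : Scheme.{u}} {t : T ⟶ Spec (CommRingCat.of k)}
    (ξ : rigidPic c ε t) : J.classOf (J.homOf ξ) = ξ :=
  (Equiv.ofBijective _ (J.bijective t)).apply_symm_apply ξ

@[simp] theorem homOf_classOf {T : Scheme.{u}} {t : T ⟶ Spec (CommRingCat.of k)}
    (g : SchemeHomOver t J.toBase) : J.homOf (J.classOf g) = g :=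
  (Equiv.ofBijective _ (J.bijective t)).symm_apply_apply g

end PicScheme

end Fermat.Agent.Jac
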