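import Fermat.Agent.Jac.Sections

/-!
Unit cocycles on a scheme and the Picard group they form.
-/

set_option autoImplicit false
set_option linter.unusedVariables false

noncomputable section

open CategoryTheory AlgebraicGeometry TopologicalSpace Opposite

namespace Fermat.Agent.Jac

universe u

variable {X Y Z : Scheme.{u}}

/-- A cocycle of units with respect to an open cover indexed by `ι`. Reading: `e j = g i j • e i`
for local generators `e`. -/
structure Cocycle (X : Scheme.{u}) (ι : Type u) where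
  U : ι → X.Opens
  cover : ∀ x : X, ∃ i, x ∈ U i
  g : ∀ i j (V : X.Opens), V ≤ U i → V ≤ U j → Γ(X, V)
  res_g : ∀ i j (V W : X.Opens) (h : W ≤ V) (hi : V ≤ U i) (hj : V ≤ U j),
    res h (g i j V hi hj) = g i j W (h.trans hi) (h.trans hj)
  g_self : ∀ i (V : X.Opens) (hi : V ≤ U i), g i i V hi hi = 1
  g_mul : ∀ i j l (V : X.Opens) (hi : V ≤ U i) (hj : V ≤ U j) (hl : V ≤ U l),
    g i j V hi hj * g j l V hj hl = g i l V hi hl

namespace Cocycle

variable {ι κ μ : Type u}

attribute [simp] Cocycle.g_self Cocycle.res_g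

theorem le_iSup (c : Cocycle X ι) (V : X.Opens) : V ≤ iSup c.U := fun x _ =>
  Opens.mem_iSup.mpr (c.cover x)

theorem isUnit_g (c : Cocycle X ι) (i j : ι) (V : X.Opens) (hi : V ≤ c.U i) (hj : V ≤ c.U j) :
    IsUnit (c.g i j V hi hj) :=
  IsUnit.of_mul_eq_one (c.g j i V hj hi) (by rw [c.g_mul, c.g_self])

/-- An isomorphism between two cocycles (a merged cocycle). -/
structure Comparison (c : Cocycle X ι) (c' : Cocycle X κ) where
  φ : ∀ i a (V : X.Opens), V ≤ c.U i → V ≤ c'.U a → Γ(X, V)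
  res_φ : ∀ i a (V W : X.Opens) (h : W ≤ V) (hi : V ≤ c.U i) (ha : V ≤ c'.U a),
    res h (φ i a V hi ha) = φ i a W (h.trans hi) (h.trans ha)
  isUnit_φ : ∀ i a (V : X.Opens) (hi : V ≤ c.U i) (ha : V ≤ c'.U a), IsUnit (φ i a V hi ha)
  g_φ : ∀ i j a (V : X.Opens) (hi : V ≤ c.U i) (hj : V ≤ c.U j) (ha : V ≤ c'.U a),
    c.g i j V hi hj * φ j a V hj ha = φ i a V hi ha
  φ_g : ∀ i a b (V : X.Opens) (hi : V ≤ c.U i) (ha : V ≤ c'.U a) (hb : V ≤ c'.U b),
    φ i a V hi ha * c'.g a b V ha hb = φ i b V hi hb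

namespace Comparison

attribute [simp] Comparison.res_φ

/-- The identity comparison. -/
def refl (c : Cocycle X ι) : Comparison c c where
  φ := c.g
  res_φ := c.res_g
  isUnit_φ := c.isUnit_g
  g_φ := c.g_mul
  φ_g := c.g_mul

/-- The inverse comparison. -/
def symm {c : Cocycle X ι} {c' : Cocycle X κ} (e : Comparison c c') : Comparison c' c where
  φ a i V ha hi := ((e.isUnit_φ i a V hi ha).unit⁻¹ : Γ(X, V)ˣ)
  res_φ a i V W h ha hi := by
    apply (e.isUnit_φ i a W (h.trans hi) (h.trans ha)).mul_left_cancel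
    rw [IsUnit.mul_val_inv, ← e.res_φ i a V W h hi ha, ← map_mul, IsUnit.mul_val_inv, map_one]
  isUnit_φ a i V ha hi := Units.isUnit _
  g_φ a b i V ha hb hi := by
    apply (e.isUnit_φ i a V hi ha).mul_left_cancel
    rw [← mul_assoc, e.φ_g, IsUnit.mul_val_inv, IsUnit.mul_val_inv]
  φ_g a i j V ha hi hj := by
    apply (e.isUnit_φ j a V hj ha).mul_right_cancel
    rw [mul_assoc, e.g_φ, IsUnit.val_inv_mul, IsUnit.val_inv_mul]

theorem exists_trans {c : Cocycle X ι} {c' : Cocycle X κ} {c'' : Cocycle X μ}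
    (e : Comparison c c') (e' : Comparison c' c'') (i : ι) (l : μ) (V : X.Opens)
    (hi : V ≤ c.U i) (hl : V ≤ c''.U l) :
    ∃! s : Γ(X, V), ∀ a W (hW : W ≤ V) (ha : W ≤ c'.U a),
      res hW s = e.φ i a W (hW.trans hi) ha * e'.φ a l W ha (hW.trans hl) :=
  sections_glue c'.U (c'.le_iSup V)
    (fun a W hW ha => e.φ i a W (hW.trans hi) ha * e'.φ a l W ha (hW.trans hl))
    (fun a W W' h hW ha => by simp)
    (fun a b W hW ha hb => by
      rw [← e.φ_g i a b W (hW.trans hi) ha hb, mul_assoc, e'.g_φ])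

/-- The composite value. -/
def transφ {c : Cocycle X ι} {c' : Cocycle X κ} {c'' : Cocycle X μ}
    (e : Comparison c c') (e' : Comparison c' c'') (i : ι) (l : μ) (V : X.Opens)
    (hi : V ≤ c.U i) (hl : V ≤ c''.U l) : Γ(X, V) :=
  (exists_trans e e' i l V hi hl).exists.choose

theorem res_transφ {c : Cocycle X ι} {c' : Cocycle X κ} {c'' : Cocycle X μ}
    (e : Comparison c c') (e' : Comparison c' c'') (i : ι) (l : μ) (V : X.Opens)
    (hi : V ≤ c.U i) (hl : V ≤ c''.U l) (a : κ) (W : X.Opens) (hW : W ≤ V) (ha : W ≤ c'.U a) :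
    res hW (transφ e e' i l V hi hl) =
      e.φ i a W (hW.trans hi) ha * e'.φ a l W ha (hW.trans hl) :=
  (exists_trans e e' i l V hi hl).exists.choose_spec a W hW ha

/-- The composite comparison. -/
def trans {c : Cocycle X ι} {c' : Cocycle X κ} {c'' : Cocycle X μ}
    (e : Comparison c c') (e' : Comparison c' c'') : Comparison c c'' where
  φ := transφ e e'
  res_φ i l V W h hi hl := sections_ext c'.U (c'.le_iSup W) fun a W' hW' ha => by
    rw [res_res, res_transφ e e' i l V hi hl a W' (hW'.trans h) ha,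
      res_transφ e e' i l W (h.trans hi) (h.trans hl) a W' hW' ha]
  isUnit_φ i l V hi hl := isUnit_of_cover c'.U (c'.le_iSup V) fun a W hW ha => by
    rw [res_transφ e e' i l V hi hl a W hW ha]
    exact (e.isUnit_φ ..).mul (e'.isUnit_φ ..)
  g_φ i j l V hi hj hl := sections_ext c'.U (c'.le_iSup V) fun a W hW ha => by
    rw [map_mul, c.res_g, res_transφ e e' j l V hj hl a W hW ha,
      res_transφ e e' i l V hi hl a W hW ha, ← mul_assoc, e.g_φ]
  φ_g i l m V hi hl hm := sections_ext c'.U (c'.le_iSup V) fun a W hW ha => by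
    rw [map_mul, c''.res_g, res_transφ e e' i l V hi hl a W hW ha,
      res_transφ e e' i m V hi hm a W hW ha, mul_assoc, e'.φ_g]

end Comparison

/-- Two cocycles define the same line bundle. -/
def Rel (c : Cocycle X ι) (c' : Cocycle X κ) : Prop := Nonempty (Comparison c c')

theorem Rel.refl (c : Cocycle X ι) : Rel c c := ⟨.refl c⟩

theorem Rel.symm {c : Cocycle X ι} {c' : Cocycle X κ} (h : Rel c c') : Rel c' c := h.map (·.symm)

theorem Rel.trans {c : Cocycle X ι} {c' : Cocycle X κ} {c'' : Cocycle X μ} (h : Rel c c')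
    (h' : Rel c' c'') : Rel c c'' := h.elim fun e => h'.elim fun e' => ⟨e.trans e'⟩

/-- Change the index type along `r`. -/
def reindex (c : Cocycle X ι) (r : κ → ι) (hr : ∀ x : X, ∃ a, x ∈ c.U (r a)) : Cocycle X κ where
  U a := c.U (r a)
  cover := hr
  g a b := c.g (r a) (r b)
  res_g a b := c.res_g (r a) (r b)
  g_self a := c.g_self (r a)
  g_mul a b d := c.g_mul (r a) (r b) (r d)

theorem rel_reindex (c : Cocycle X ι) (r : κ → ι) (hr : ∀ x : X, ∃ a, x ∈ c.U (r a)) :
    Rel c (c.reindex r hr) :=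
  ⟨{ φ := fun i a => c.g i (r a)
     res_φ := fun i a => c.res_g i (r a)
     isUnit_φ := fun i a => c.isUnit_g i (r a)
     g_φ := fun i j a => c.g_mul i j (r a)
     φ_g := fun i a b => c.g_mul i (r a) (r b) }⟩

/-- The trivial cocycle. -/
def one (X : Scheme.{u}) : Cocycle X PUnit.{u + 1} where
  U _ := ⊤
  cover _ := ⟨⟨⟩, trivial⟩
  g _ _ _ _ _ := 1
  res_g _ _ _ _ _ _ _ := map_one _
  g_self _ _ _ := rfl
  g_mul _ _ _ _ _ _ _ := one_mul _

/-- Product of cocycles. -/
def mul (c : Cocycle X ι) (c' : Cocycle X κ) : Cocycle X (ι × κ) where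
  U p := c.U p.1 ⊓ c'.U p.2
  cover x := by
    obtain ⟨i, hi⟩ := c.cover x
    obtain ⟨a, ha⟩ := c'.cover x
    exact ⟨(i, a), hi, ha⟩
  g p q V hp hq := c.g p.1 q.1 V (hp.trans inf_le_left) (hq.trans inf_le_left) *
    c'.g p.2 q.2 V (hp.trans inf_le_right) (hq.trans inf_le_right)
  res_g p q V W h hp hq := by simp
  g_self p V hp := by simp
  g_mul p q r V hp hq hr := by rw [mul_mul_mul_comm, c.g_mul, c'.g_mul]

/-- Inverse of a cocycle. -/
def inv (c : Cocycle X ι) : Cocycle X ι where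
  U := c.U
  cover := c.cover
  g i j V hi hj := c.g j i V hj hi
  res_g i j V W h hi hj := c.res_g j i V W h hj hi
  g_self := c.g_self
  g_mul i j l V hi hj hl := by rw [mul_comm, c.g_mul]

theorem Rel.mul {ι' κ' : Type u} {c₁ : Cocycle X ι} {c₁' : Cocycle X ι'} {c₂ : Cocycle X κ}
    {c₂' : Cocycle X κ'} (h₁ : Rel c₁ c₁') (h₂ : Rel c₂ c₂') :
    Rel (c₁.mul c₂) (c₁'.mul c₂') :=
  h₁.elim fun e => h₂.elim fun e' => ⟨{
    φ := fun p q V hp hq => e.φ p.1 q.1 V (hp.trans inf_le_left) (hq.trans inf_le_left) *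
      e'.φ p.2 q.2 V (hp.trans inf_le_right) (hq.trans inf_le_right)
    res_φ := fun p q V W h hp hq => by simp
    isUnit_φ := fun p q V hp hq => (e.isUnit_φ ..).mul (e'.isUnit_φ ..)
    g_φ := fun p q r V hp hq hr => by
      change _ * _ * (_ * _) = _
      rw [mul_mul_mul_comm, e.g_φ, e'.g_φ]
    φ_g := fun p q r V hp hq hr => by
      change _ * _ * (_ * _) = _
      rw [mul_mul_mul_comm, e.φ_g, e'.φ_g] }⟩

theorem Rel.inv {c : Cocycle X ι} {c' : Cocycle X κ} (h : Rel c c') : Rel c.inv c'.inv :=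
  h.elim fun e => ⟨{
    φ := fun i a V hi ha => e.symm.φ a i V ha hi
    res_φ := fun i a V W h hi ha => e.symm.res_φ a i V W h ha hi
    isUnit_φ := fun i a V hi ha => e.symm.isUnit_φ a i V ha hi
    g_φ := fun i j a V hi hj ha => by rw [mul_comm]; exact e.symm.φ_g a j i V ha hj hi
    φ_g := fun i a b V hi ha hb => by rw [mul_comm]; exact e.symm.g_φ b a i V hb ha hi }⟩

theorem mul_comm_rel (c : Cocycle X ι) (c' : Cocycle X κ) : Rel (c.mul c') (c'.mul c) :=
  ⟨{ φ := fun p q V hp hq => c.g p.1 q.2 V (hp.trans inf_le_left) (hq.trans inf_le_right) *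
      c'.g p.2 q.1 V (hp.trans inf_le_right) (hq.trans inf_le_left)
     res_φ := fun p q V W h hp hq => by simp
     isUnit_φ := fun p q V hp hq => (c.isUnit_g ..).mul (c'.isUnit_g ..)
     g_φ := fun p q r V hp hq hr => by
       change _ * _ * (_ * _) = _
       rw [mul_mul_mul_comm, c.g_mul, c'.g_mul]
     φ_g := fun p q r V hp hq hr => by
       change _ * _ * (c'.g _ _ V _ _ * c.g _ _ V _ _) = _
       rw [mul_comm (c'.g q.1 r.1 V _ _), mul_mul_mul_comm, c.g_mul, c'.g_mul] }⟩

theorem mul_assoc_rel (a : Cocycle X ι) (b : Cocycle X κ) (c : Cocycle X μ) :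
    Rel ((a.mul b).mul c) (a.mul (b.mul c)) := by
  refine (rel_reindex ((a.mul b).mul c) (fun p : ι × κ × μ => ((p.1, p.2.1), p.2.2)) ?_).trans ?_
  · intro x
    obtain ⟨⟨⟨i, j⟩, l⟩, hx⟩ := ((a.mul b).mul c).cover x
    exact ⟨(i, j, l), hx⟩
  · exact ⟨{
      φ := fun p q V hp hq => a.g p.1 q.1 V (hp.trans (inf_le_left.trans inf_le_left))
          (hq.trans inf_le_left) *
        (b.g p.2.1 q.2.1 V (hp.trans (inf_le_left.trans inf_le_right))
            (hq.trans (inf_le_right.trans inf_le_left)) *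
          c.g p.2.2 q.2.2 V (hp.trans inf_le_right) (hq.trans (inf_le_right.trans inf_le_right)))
      res_φ := fun p q V W h hp hq => by simp
      isUnit_φ := fun p q V hp hq =>
        (a.isUnit_g ..).mul ((b.isUnit_g ..).mul (c.isUnit_g ..))
      g_φ := fun p q r V hp hq hr => by
        change _ * _ * _ * (_ * (_ * _)) = _
        rw [mul_assoc (a.g _ _ V _ _), mul_mul_mul_comm, a.g_mul, mul_mul_mul_comm, b.g_mul,
          c.g_mul]
      φ_g := fun p q r V hp hq hr => by
        change _ * (_ * _) * (_ * (_ * _)) = _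
        rw [mul_mul_mul_comm, a.g_mul, mul_mul_mul_comm, b.g_mul, c.g_mul] }⟩

theorem one_mul_rel (c : Cocycle X ι) : Rel ((one X).mul c) c :=
  ⟨{ φ := fun p i V hp hi => c.g p.2 i V (hp.trans inf_le_right) hi
     res_φ := fun p i V W h hp hi => by simp
     isUnit_φ := fun p i V hp hi => c.isUnit_g ..
     g_φ := fun p q i V hp hq hi => by
       change 1 * _ * _ = _
       rw [one_mul, c.g_mul]
     φ_g := fun p i j V hp hi hj => by rw [c.g_mul] }⟩

theorem inv_mul_rel (c : Cocycle X ι) : Rel (c.inv.mul c) (one X) :=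
  ⟨{ φ := fun p _ V hp _ => c.g p.2 p.1 V (hp.trans inf_le_right) (hp.trans inf_le_left)
     res_φ := fun p _ V W h hp _ => by simp
     isUnit_φ := fun p _ V hp _ => c.isUnit_g ..
     g_φ := fun p q _ V hp hq _ => by
       change c.g _ _ V _ _ * c.g _ _ V _ _ * _ = _
       rw [mul_assoc, c.g_mul, mul_comm]
       exact c.g_mul ..
     φ_g := fun p _ _ V hp _ _ => mul_one _ }⟩

/-- Pullback along a morphism. -/
def pull (f : X ⟶ Y) (c : Cocycle Y ι) : Cocycle X ι where
  U i := f ⁻¹ᵁ c.U i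
  cover x := c.cover (f.base x)
  g i j V hi hj := appLEHom f (U := c.U i ⊓ c.U j) (show V ≤ f ⁻¹ᵁ (c.U i ⊓ c.U j) from le_inf hi hj)
    (c.g i j _ inf_le_left inf_le_right)
  res_g i j V W h hi hj := by simp
  g_self i V hi := by simp
  g_mul i j l V hi hj hl := by
    have hV : V ≤ f ⁻¹ᵁ (c.U i ⊓ (c.U j ⊓ c.U l)) := le_inf hi (le_inf hj hl)
    have h := congrArg (appLEHom f hV)
      (c.g_mul i j l _ inf_le_left (inf_le_right.trans inf_le_left) (inf_le_right.trans inf_le_right))
    rw [map_mul,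
      ← c.res_g i j (c.U i ⊓ c.U j) _ (le_inf inf_le_left (inf_le_right.trans inf_le_left))
        inf_le_left inf_le_right,
      ← c.res_g j l (c.U j ⊓ c.U l) _ inf_le_right inf_le_left inf_le_right,
      ← c.res_g i l (c.U i ⊓ c.U l) _ (le_inf inf_le_left (inf_le_right.trans inf_le_right))
        inf_le_left inf_le_right, appLEHom_res, appLEHom_res, appLEHom_res] at h
    exact h

theorem pull_g (f : X ⟶ Y) (c : Cocycle Y ι) (i j : ι) (V : X.Opens) (W : Y.Opens)
    (hW : V ≤ f ⁻¹ᵁ W) (hi : W ≤ c.U i) (hj : W ≤ c.U j) :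
    (c.pull f).g i j V (hW.trans (f.preimage_mono hi)) (hW.trans (f.preimage_mono hj)) =
      appLEHom f hW (c.g i j W hi hj) := by
  rw [← c.res_g i j (c.U i ⊓ c.U j) W (le_inf hi hj) inf_le_left inf_le_right, appLEHom_res]
  rfl

theorem Rel.pull (f : X ⟶ Y) {c : Cocycle Y ι} {c' : Cocycle Y κ} (h : Rel c c') :
    Rel (c.pull f) (c'.pull f) :=
  h.elim fun e => ⟨{
    φ := fun i a V hi ha => appLEHom f (U := c.U i ⊓ c'.U a)
      (show V ≤ f ⁻¹ᵁ (c.U i ⊓ c'.U a) from le_inf hi ha) (e.φ i a _ inf_le_left inf_le_right)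
    res_φ := fun i a V W h hi ha => by simp
    isUnit_φ := fun i a V hi ha => (e.isUnit_φ ..).map _
    g_φ := fun i j a V hi hj ha => by
      have hV : V ≤ f ⁻¹ᵁ (c.U i ⊓ (c.U j ⊓ c'.U a)) := le_inf hi (le_inf hj ha)
      have h := congrArg (appLEHom f hV) (e.g_φ i j a _ inf_le_left
        (inf_le_right.trans inf_le_left) (inf_le_right.trans inf_le_right))
      rw [map_mul,
        ← c.res_g i j (c.U i ⊓ c.U j) _ (le_inf inf_le_left (inf_le_right.trans inf_le_left))
          inf_le_left inf_le_right,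
        ← e.res_φ j a (c.U j ⊓ c'.U a) _ inf_le_right inf_le_left inf_le_right,
        ← e.res_φ i a (c.U i ⊓ c'.U a) _ (le_inf inf_le_left (inf_le_right.trans inf_le_right))
          inf_le_left inf_le_right, appLEHom_res, appLEHom_res, appLEHom_res] at h
      exact h
    φ_g := fun i a b V hi ha hb => by
      have hV : V ≤ f ⁻¹ᵁ (c.U i ⊓ (c'.U a ⊓ c'.U b)) := le_inf hi (le_inf ha hb)
      have h := congrArg (appLEHom f hV) (e.φ_g i a b _ inf_le_left
        (inf_le_right.trans inf_le_left) (inf_le_right.trans inf_le_right))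
      rw [map_mul,
        ← e.res_φ i a (c.U i ⊓ c'.U a) _ (le_inf inf_le_left (inf_le_right.trans inf_le_left))
          inf_le_left inf_le_right,
        ← c'.res_g a b (c'.U a ⊓ c'.U b) _ inf_le_right inf_le_left inf_le_right,
        ← e.res_φ i b (c.U i ⊓ c'.U b) _ (le_inf inf_le_left (inf_le_right.trans inf_le_right))
          inf_le_left inf_le_right, appLEHom_res, appLEHom_res, appLEHom_res] at h
      exact h }⟩

/-- Cocycles with equal opens and transition functions are related. -/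
theorem rel_of_eq {c c' : Cocycle X ι} (hU : ∀ i, c'.U i = c.U i)
    (hg : ∀ i j V hi hj, c'.g i j V hi hj = c.g i j V (hi.trans (hU i).le) (hj.trans (hU j).le)) :
    Rel c c' :=
  ⟨{ φ := fun i a V hi ha => c.g i a V hi (ha.trans (hU a).le)
     res_φ := fun i a V W h hi ha => by simp
     isUnit_φ := fun i a V hi ha => c.isUnit_g ..
     g_φ := fun i j a V hi hj ha => c.g_mul ..
     φ_g := fun i a b V hi ha hb => by rw [hg, c.g_mul] }⟩

theorem pull_one_rel (f : X ⟶ Y) : Rel ((one Y).pull f) (one X) :=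
  rel_of_eq (fun _ => rfl) (fun _ _ V _ _ => (map_one _).symm)

theorem pull_mul_rel (f : X ⟶ Y) (c : Cocycle Y ι) (c' : Cocycle Y κ) :
    Rel ((c.mul c').pull f) ((c.pull f).mul (c'.pull f)) :=
  rel_of_eq (fun _ => rfl) fun p q V hp hq => by
    have hW : V ≤ f ⁻¹ᵁ ((c.mul c').U p ⊓ (c.mul c').U q) := le_inf hp hq
    change _ = appLEHom f hW (_ * _)
    rw [map_mul]
    exact congrArg₂ (· * ·) (pull_g f c p.1 q.1 V _ hW _ _) (pull_g f c' p.2 q.2 V _ hW _ _)

theorem pull_pull_rel (f : X ⟶ Y) (h : Y ⟶ Z) (c : Cocycle Z ι) :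
    Rel (c.pull (f ≫ h)) ((c.pull h).pull f) :=
  rel_of_eq (fun _ => rfl) fun i j V hi hj => appLEHom_appLEHom f h _ _ _

theorem pull_id_rel (c : Cocycle X ι) : Rel c (c.pull (𝟙 X)) :=
  rel_of_eq (fun _ => rfl) fun i j V hi hj => by
    change appLEHom _ _ _ = _
    rw [appLEHom_id]
    exact c.res_g ..

end Cocycle

/-- Setoid on point-indexed cocycles. -/
@[reducible]
def picSetoid (X : Scheme.{u}) : Setoid (Cocycle X X) where
  r := Cocycle.Rel
  iseqv := ⟨Cocycle.Rel.refl, Cocycle.Rel.symm, Cocycle.Rel.trans⟩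

/-- The Picard group as classes of unit cocycles. -/
def Pic (X : Scheme.{u}) : Type u := Quotient (picSetoid X)

namespace Pic

variable {ι κ : Type u}

/-- The class of a cocycle. -/
def mk (c : Cocycle X ι) : Pic X :=
  Quotient.mk _ (c.reindex (fun x : X => (c.cover x).choose)
    (fun x => ⟨x, (c.cover x).choose_spec⟩))

theorem mk_eq_mk_iff {c : Cocycle X ι} {c' : Cocycle X κ} : mk c = mk c' ↔ Cocycle.Rel c c' := by
  refine ⟨fun h => ?_, fun h => Quotient.sound ?_⟩
  · exact (c.rel_reindex _ _).trans ((Quotient.exact h : Cocycle.Rel _ _).trans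
      (c'.rel_reindex _ _).symm)
  · exact (c.rel_reindex _ _).symm.trans (h.trans (c'.rel_reindex _ _))

theorem mk_quotient (c : Cocycle X X) : mk c = (Quotient.mk _ c : Pic X) :=
  Quotient.sound (c.rel_reindex _ _).symm

theorem mk_surjective (p : Pic X) : ∃ c : Cocycle X X, mk c = p := by
  induction p using Quotient.ind with | _ c => exact ⟨c, mk_quotient c⟩

@[elab_as_elim]
theorem ind {motive : Pic X → Prop} (h : ∀ (ι : Type u) (c : Cocycle X ι), motive (mk c))
    (p : Pic X) : motive p := by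
  obtain ⟨c, rfl⟩ := mk_surjective p
  exact h _ c

instance : One (Pic X) := ⟨mk (Cocycle.one X)⟩

instance : Mul (Pic X) :=
  ⟨Quotient.lift₂ (fun c c' : Cocycle X X => mk (c.mul c'))
    fun _ _ _ _ h h' => mk_eq_mk_iff.mpr (Cocycle.Rel.mul h h')⟩

instance : Inv (Pic X) :=
  ⟨Quotient.lift (fun c : Cocycle X X => mk c.inv) fun _ _ h => mk_eq_mk_iff.mpr (Cocycle.Rel.inv h)⟩

theorem one_def : (1 : Pic X) = mk (Cocycle.one X) := rfl

theorem mk_mul (c : Cocycle X ι) (c' : Cocycle X κ) : mk c * mk c' = mk (c.mul c') :=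
  mk_eq_mk_iff.mpr (Cocycle.Rel.mul (c.rel_reindex _ _).symm (c'.rel_reindex _ _).symm)

theorem mk_inv (c : Cocycle X ι) : (mk c)⁻¹ = mk c.inv :=
  mk_eq_mk_iff.mpr (Cocycle.Rel.inv (c.rel_reindex _ _).symm)

instance : CommGroup (Pic X) where
  mul_assoc a b c := by
    induction a using Pic.ind; induction b using Pic.ind; induction c using Pic.ind
    simp only [mk_mul]
    exact mk_eq_mk_iff.mpr (Cocycle.mul_assoc_rel ..)
  one_mul a := by
    induction a using Pic.ind
    rw [one_def, mk_mul]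
    exact mk_eq_mk_iff.mpr (Cocycle.one_mul_rel _)
  mul_one a := by
    induction a using Pic.ind
    rw [one_def, mk_mul]
    exact mk_eq_mk_iff.mpr ((Cocycle.mul_comm_rel ..).trans (Cocycle.one_mul_rel _))
  inv_mul_cancel a := by
    induction a using Pic.ind
    rw [one_def, mk_inv, mk_mul]
    exact mk_eq_mk_iff.mpr (Cocycle.inv_mul_rel _)
  mul_comm a b := by
    induction a using Pic.ind; induction b using Pic.ind
    simp only [mk_mul]
    exact mk_eq_mk_iff.mpr (Cocycle.mul_comm_rel ..)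

/-- Functoriality of the Picard group. -/
def map (f : X ⟶ Y) : Pic Y →* Pic X where
  toFun := Quotient.lift (fun c : Cocycle Y Y => mk (c.pull f))
    fun _ _ h => mk_eq_mk_iff.mpr (Cocycle.Rel.pull f h)
  map_one' :=
    mk_eq_mk_iff.mpr ((Cocycle.Rel.pull f ((Cocycle.one Y).rel_reindex _ _).symm).trans
      (Cocycle.pull_one_rel f))
  map_mul' a b := by
    induction a using Quotient.ind with | _ c => ?_
    induction b using Quotient.ind with | _ c' => ?_
    change mk _ = mk (c.pull f) * mk (c'.pull f)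
    rw [mk_mul]
    exact mk_eq_mk_iff.mpr ((Cocycle.Rel.pull f ((c.mul c').rel_reindex _ _).symm).trans
      (Cocycle.pull_mul_rel f c c'))

theorem map_mk (f : X ⟶ Y) (c : Cocycle Y ι) : map f (mk c) = mk (c.pull f) :=
  mk_eq_mk_iff.mpr (Cocycle.Rel.pull f (c.rel_reindex _ _).symm)

theorem map_map (f : X ⟶ Y) (g : Y ⟶ Z) (p : Pic Z) : map f (map g p) = map (f ≫ g) p := by
  induction p using Pic.ind
  rw [map_mk, map_mk, map_mk]
  exact mk_eq_mk_iff.mpr (Cocycle.pull_pull_rel ..).symm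

theorem map_id (p : Pic X) : map (𝟙 X) p = p := by
  induction p using Pic.ind
  rw [map_mk]
  exact mk_eq_mk_iff.mpr (Cocycle.pull_id_rel _).symm

end Pic

end Fermat.Agent.Jac
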