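import Mathlib
import Fermat.Prelude.Def_AlgebraicGeometry_NeronModelPropertyBundleCarrier

/-!
A proper irreducible family of points containing an open piece of a homogeneous separated scheme
locally of finite type over an algebraically closed field has clopen, proper, geometrically connected
image.
-/

set_option autoImplicit false

noncomputable section

open CategoryTheory CategoryTheory.Limits AlgebraicGeometry TopologicalSpace NeronModelInfra

namespace Fermat.Agent.Jac

universe u

variable {k : Type u} [Field k]

/-- Over an algebraically closed field, closed points are images of rational points. -/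
theorem exists_rationalPoint_of_isClosed [IsAlgClosed k] {P : Scheme.{u}}
    (p : P ⟶ Spec (CommRingCat.of k)) [LocallyOfFiniteType p] {q : P} (hq : IsClosed {q}) :
    ∃ a : SchemeHomOver (𝟙 (Spec (CommRingCat.of k))) p, ∀ s, a.1 s = q :=
  ⟨⟨pointOfClosedPoint p q hq, pointOfClosedPoint_comp p q hq⟩, pointOfClosedPoint_apply p q hq⟩

variable {P X : Scheme.{u}} {p : P ⟶ Spec (CommRingCat.of k)} {x : X ⟶ Spec (CommRingCat.of k)}

section

variable [IsAlgClosed k] [LocallyOfFiniteType p] [IsSeparated p] [IsProper x]
  [GeometricallyIntegral x]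

theorem isClopen_range_of_homogeneous (α : SchemeHomOver x p)
    (hV : ∃ V : P.Opens, (V : Set P).Nonempty ∧
      ∀ q ∈ V, IsClosed {q} → q ∈ Set.range α.1)
    (htrans : ∀ a b : SchemeHomOver (𝟙 (Spec (CommRingCat.of k))) p,
      ∃ e : P ≅ P, e.hom ≫ p = p ∧ a.1 ≫ e.hom = b.1) :
    IsClopen (Set.range α.1) := by
  have : IsProper (α.1 ≫ p) := by rw [α.2]; infer_instance
  have : IsProper α.1 := IsProper.of_comp α.1 p
  have hclosed : IsClosed (Set.range α.1) := α.1.isClosedMap.isClosed_range
  have : IrreducibleSpace X := GeometricallyIrreducible.irreducibleSpace_of_subsingleton x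
  have hirr : IsIrreducible (Set.range α.1) := by
    rw [← Set.image_univ]
    exact (IrreducibleSpace.isIrreducible_univ X).image _ α.1.continuous.continuousOn
  have : JacobsonSpace P := LocallyOfFiniteType.jacobsonSpace p
  obtain ⟨V, hne, hV⟩ := hV
  have hVR : (V : Set P) ⊆ Set.range α.1 := fun q hq => by
    have h1 := JacobsonSpace.closure_inter_closedPoints_eq_closure V.isOpen.isLocallyClosed
    have h2 : q ∈ closure ((V : Set P) ∩ closedPoints P) := by
      rw [h1]; exact subset_closure hq
    exact hclosed.closure_subset_iff.mpr (fun r hr => hV r hr.1 hr.2) h2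
  have hVirr : IsPreirreducible (V : Set P) := hirr.2.open_subset V.isOpen hVR
  obtain ⟨qa, hqaV, hqa⟩ := nonempty_inter_closedPoints hne V.isOpen.isLocallyClosed
  obtain ⟨a, ha⟩ := exists_rationalPoint_of_isClosed p hqa
  refine ⟨hclosed, isOpen_iff_forall_mem_open.mpr fun y hy => ?_⟩
  obtain ⟨qb, hqby, hqb⟩ :=
    nonempty_inter_closedPoints (Z := closure ({y} : Set P)) ⟨y, subset_closure rfl⟩
      isClosed_closure.isLocallyClosed
  obtain ⟨b, hb⟩ := exists_rationalPoint_of_isClosed p hqb
  obtain ⟨e, -, he⟩ := htrans a b
  let W : Set P := e.hom '' (V : Set P)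
  have hWopen : IsOpen W := e.hom.isOpenEmbedding.isOpenMap _ V.isOpen
  have hWirr : IsPreirreducible W := hVirr.image _ e.hom.continuous.continuousOn
  have hqbW : qb ∈ W := by
    refine ⟨qa, hqaV, ?_⟩
    have s : Spec (CommRingCat.of k) := IsLocalRing.closedPoint k
    rw [← ha s, ← Scheme.Hom.comp_apply, he, hb s]
  have hyW : y ∈ W := (specializes_iff_mem_closure.mpr hqby).mem_open hWopen hqbW
  refine ⟨W, ?_, hWopen, hyW⟩
  obtain ⟨q₀, hq₀⟩ := hne
  obtain ⟨z, hz1, hz2⟩ := hirr.2 V W V.isOpen hWopen ⟨q₀, hVR hq₀, hq₀⟩ ⟨y, hy, hyW⟩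
  have hd : W ⊆ closure (W ∩ (V : Set P)) :=
    subset_closure_inter_of_isPreirreducible_of_isOpen hWirr V.isOpen ⟨z, hz2.2, hz2.1⟩
  exact hd.trans (hclosed.closure_subset_iff.mpr fun r hr => hVR hr.2)

end

variable (α : SchemeHomOver x p) (hα : IsClopen (Set.range α.1))

/-- The image of `α`, as an open subscheme. -/
def component : P.Opens := ⟨Set.range α.1, hα.2⟩

/-- The structure map of the image component. -/
def componentToBase : (component α hα).toScheme ⟶ Spec (CommRingCat.of k) :=
  (component α hα).ι ≫ p

theorem range_subset_componentι : Set.range α.1 ⊆ Set.range (component α hα).ι := by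
  rw [Scheme.Opens.range_ι]; exact subset_rfl

/-- `α` as a map to its image component. -/
def toComponent : X ⟶ (component α hα).toScheme :=
  IsOpenImmersion.lift (component α hα).ι α.1 (range_subset_componentι α hα)

theorem toComponent_ι : toComponent α hα ≫ (component α hα).ι = α.1 :=
  IsOpenImmersion.lift_fac _ _ _

theorem toComponent_toBase : toComponent α hα ≫ componentToBase α hα = x := by
  rw [componentToBase, ← Category.assoc, toComponent_ι, α.2]

theorem surjective_toComponent : Surjective (toComponent α hα) := by
  refine ⟨fun y => ?_⟩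
  have hy : (component α hα).ι y ∈ Set.range α.1 := y.2
  obtain ⟨z, hz⟩ := hy
  refine ⟨z, (component α hα).ι.isOpenEmbedding.injective ?_⟩
  rw [← Scheme.Hom.comp_apply, toComponent_ι, hz]

theorem isProper_componentToBase [LocallyOfFiniteType p] [IsSeparated p] [IsProper x] :
    IsProper (componentToBase α hα) := by
  have := surjective_toComponent α hα
  have h1 : IsSeparated (componentToBase α hα) :=
    inferInstanceAs (IsSeparated ((component α hα).ι ≫ p))
  have h2 : LocallyOfFiniteType (componentToBase α hα) :=
    inferInstanceAs (LocallyOfFiniteType ((component α hα).ι ≫ p))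
  have : UniversallyClosed (toComponent α hα ≫ componentToBase α hα) := by
    rw [toComponent_toBase]; infer_instance
  have h3 : UniversallyClosed (componentToBase α hα) :=
    UniversallyClosed.of_comp_surjective (toComponent α hα) _
  exact { h1, h2, h3 with }

theorem geometricallyConnected_componentToBase [GeometricallyIrreducible x] :
    GeometricallyConnected (componentToBase α hα) := by
  refine ⟨fun K _ y Z fst snd h => ?_⟩
  have := surjective_toComponent α hα
  have hs : Surjective (pullback.fst fst (toComponent α hα)) :=
    MorphismProperty.pullback_fst _ _ inferInstance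
  have h' : IsPullback (pullback.snd fst (toComponent α hα))
      (pullback.fst fst (toComponent α hα) ≫ snd) x y := by
    have := ((IsPullback.of_hasPullback fst (toComponent α hα)).flip).paste_vert h
    rwa [toComponent_toBase] at this
  have : IrreducibleSpace ↥(pullback fst (toComponent α hα)) :=
    GeometricallyIrreducible.geometrically_irreducibleSpace _ _ _ h'
  exact hs.surj.connectedSpace (pullback.fst fst (toComponent α hα)).continuous

/-- A point through `α` lies in the component. -/
theorem range_subset_component_of_factor {Y : Scheme.{u}} (g : Y ⟶ P) (g' : Y ⟶ X)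
    (h : g' ≫ α.1 = g) : Set.range g ⊆ component α hα := by
  rintro _ ⟨y, rfl⟩
  exact ⟨g' y, by rw [← Scheme.Hom.comp_apply, h]⟩

/-- A map from a preconnected scheme meeting the component lands in it. -/
theorem range_subset_component_of_preconnected {T : Scheme.{u}} [PreconnectedSpace T] (g : T ⟶ P)
    (h : ∃ t : T, g t ∈ component α hα) : Set.range g ⊆ component α hα := by
  have hc : IsClopen (g ⁻¹' Set.range α.1) := hα.preimage g.continuous
  have huniv : g ⁻¹' Set.range α.1 = Set.univ := hc.eq_univ h
  rintro _ ⟨t, rfl⟩
  exact huniv.ge (Set.mem_univ t)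

/-- Factorisation through the component. -/
def liftComponent {T : Scheme.{u}} {t : T ⟶ Spec (CommRingCat.of k)} (g : SchemeHomOver t p)
    (h : Set.range g.1 ⊆ component α hα) : SchemeHomOver t (componentToBase α hα) :=
  ⟨IsOpenImmersion.lift (component α hα).ι g.1 (by rwa [Scheme.Opens.range_ι]),
    ((Category.assoc _ _ _).symm.trans
      (congrArg (· ≫ p) (IsOpenImmersion.lift_fac _ _ _))).trans g.2⟩

theorem liftComponent_ι {T : Scheme.{u}} {t : T ⟶ Spec (CommRingCat.of k)} (g : SchemeHomOver t p)
    (h : Set.range g.1 ⊆ component α hα) :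
    (liftComponent α hα g h).1 ≫ (component α hα).ι = g.1 :=
  IsOpenImmersion.lift_fac _ _ _

/-- The marked point of the component. -/
theorem exists_componentPoint (o : SchemeHomOver (𝟙 (Spec (CommRingCat.of k))) p)
    (ho : ∃ o' : Spec (CommRingCat.of k) ⟶ X, o' ≫ α.1 = o.1) :
    ∃ z : SchemeHomOver (𝟙 (Spec (CommRingCat.of k))) (componentToBase α hα),
      z.1 ≫ (component α hα).ι = o.1 := by
  obtain ⟨o', ho'⟩ := ho
  exact ⟨liftComponent α hα o (range_subset_component_of_factor α hα o.1 o' ho'),
    liftComponent_ι ..⟩

end Fermat.Agent.Jac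

end
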