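import Fermat.Agent.Jac.SheafOfSections

/-!
Isomorphism classes of invertible modules and the Picard group of cocycles.
-/

set_option autoImplicit false
set_option linter.unusedVariables false

noncomputable section

open CategoryTheory AlgebraicGeometry TopologicalSpace Opposite

namespace Fermat.Agent.Jac

universe u

variable {X Y : Scheme.{u}} {ι κ : Type u}

/-- Restriction of sections of a module. -/
def mres (M : X.Modules) {V W : X.Opens} (h : V ≤ W) (s : Γ(M, W)) : Γ(M, V) :=
  M.presheaf.map (homOfLE h).op s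

@[simp] theorem mres_mres (M : X.Modules) {U V W : X.Opens} (h : U ≤ V) (h' : V ≤ W)
    (s : Γ(M, W)) : mres M h (mres M h' s) = mres M (h.trans h') s := by
  change (M.presheaf.map (homOfLE h').op ≫ M.presheaf.map (homOfLE h).op) s = _
  rw [← Functor.map_comp]
  rfl

theorem mres_smul (M : X.Modules) {V W : X.Opens} (h : V ≤ W) (r : Γ(X, W)) (s : Γ(M, W)) :
    mres M h (r • s) = res h r • mres M h s :=
  Scheme.Modules.map_smul M (homOfLE h) r s

theorem app_mres {M N : X.Modules} (φ : M ⟶ N) {V W : X.Opens} (h : V ≤ W) (s : Γ(M, W)) :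
    φ.app V (mres M h s) = mres N h (φ.app W s) :=
  CategoryTheory.congr_fun (φ.mapPresheaf.naturality (homOfLE h).op) s

/-- `e` generates `M` on every smaller open. -/
def IsGenSection (M : X.Modules) {U : X.Opens} (e : Γ(M, U)) : Prop :=
  ∀ (V : X.Opens) (h : V ≤ U), Function.Bijective (fun r : Γ(X, V) => r • mres M h e)

theorem IsGenSection.mono {M : X.Modules} {U U' : X.Opens} {e : Γ(M, U)} (he : IsGenSection M e)
    (h : U' ≤ U) : IsGenSection M (mres M h e) := fun V hV => by
  simp only [mres_mres]; exact he V (hV.trans h)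

/-- A local trivialisation of a module. -/
structure Triv (M : X.Modules) (ι : Type u) where
  U : ι → X.Opens
  cover : ∀ x : X, ∃ i, x ∈ U i
  e : ∀ i, Γ(M, U i)
  gen : ∀ i, IsGenSection M (e i)

namespace Triv

variable {M : X.Modules}

theorem existsUnique_g (t : Triv M ι) (t' : Triv M κ) (i : ι) (a : κ) (V : X.Opens)
    (hi : V ≤ t.U i) (ha : V ≤ t'.U a) :
    ∃! r : Γ(X, V), r • mres M hi (t.e i) = mres M ha (t'.e a) :=
  (Function.bijective_iff_existsUnique _).mp (t.gen i V hi) _

/-- The coefficient of `t'.e a` in terms of `t.e i`. -/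
def g (t : Triv M ι) (t' : Triv M κ) (i : ι) (a : κ) (V : X.Opens) (hi : V ≤ t.U i)
    (ha : V ≤ t'.U a) : Γ(X, V) :=
  (existsUnique_g t t' i a V hi ha).exists.choose

theorem g_smul (t : Triv M ι) (t' : Triv M κ) (i : ι) (a : κ) (V : X.Opens) (hi : V ≤ t.U i)
    (ha : V ≤ t'.U a) : g t t' i a V hi ha • mres M hi (t.e i) = mres M ha (t'.e a) :=
  (existsUnique_g t t' i a V hi ha).exists.choose_spec

theorem g_eq (t : Triv M ι) (t' : Triv M κ) (i : ι) (a : κ) (V : X.Opens) (hi : V ≤ t.U i)
    (ha : V ≤ t'.U a) {r : Γ(X, V)} (h : r • mres M hi (t.e i) = mres M ha (t'.e a)) :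
    g t t' i a V hi ha = r :=
  (t.gen i V hi).1 ((g_smul t t' i a V hi ha).trans h.symm)

theorem res_g (t : Triv M ι) (t' : Triv M κ) (i : ι) (a : κ) (V W : X.Opens) (h : W ≤ V)
    (hi : V ≤ t.U i) (ha : V ≤ t'.U a) :
    res h (g t t' i a V hi ha) = g t t' i a W (h.trans hi) (h.trans ha) := by
  refine (g_eq t t' i a W _ _ ?_).symm
  rw [← mres_mres M h hi, ← mres_smul, g_smul, mres_mres]

theorem g_mul {μ : Type u} (t : Triv M ι) (t' : Triv M κ) (t'' : Triv M μ) (i : ι) (a : κ) (l : μ)
    (V : X.Opens) (hi : V ≤ t.U i) (ha : V ≤ t'.U a) (hl : V ≤ t''.U l) :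
    g t t' i a V hi ha * g t' t'' a l V ha hl = g t t'' i l V hi hl := by
  refine (g_eq t t'' i l V hi hl ?_).symm
  rw [mul_comm, mul_smul, g_smul, g_smul]

theorem g_self (t : Triv M ι) (i : ι) (V : X.Opens) (hi : V ≤ t.U i) : g t t i i V hi hi = 1 :=
  g_eq t t i i V hi hi (one_smul _ _)

/-- The cocycle of a trivialisation. -/
@[reducible] def cocycle (t : Triv M ι) : Cocycle X ι where
  U := t.U
  cover := t.cover
  g := g t t
  res_g := res_g t t
  g_self := g_self t
  g_mul := g_mul t t t

theorem rel (t : Triv M ι) (t' : Triv M κ) : Cocycle.Rel t.cocycle t'.cocycle :=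
  ⟨{ φ := g t t'
     res_φ := res_g t t'
     isUnit_φ := fun i a V hi ha => IsUnit.of_mul_eq_one (g t' t a i V ha hi)
       ((g_mul t t' t i a i V hi ha hi).trans (g_self t i V hi))
     g_φ := g_mul t t t'
     φ_g := g_mul t t' t' }⟩

/-- Transport along an isomorphism. -/
@[reducible] def transport {N : X.Modules} (t : Triv M ι) (φ : M ≅ N) : Triv N ι where
  U := t.U
  cover := t.cover
  e i := φ.hom.app (t.U i) (t.e i)
  gen i V h := by
    have hb : Function.Bijective (φ.hom.app V) := ConcreteCategory.bijective_of_isIso _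
    have : (fun r : Γ(X, V) => r • mres N h (φ.hom.app (t.U i) (t.e i))) =
        φ.hom.app V ∘ (fun r : Γ(X, V) => r • mres M h (t.e i)) := by
      funext r
      simp only [Function.comp_apply, Scheme.Modules.Hom.app_smul, app_mres]
    rw [this]
    exact hb.comp (t.gen i V h)

theorem transport_cocycle_rel {N : X.Modules} (t : Triv M ι) (φ : M ≅ N) :
    Cocycle.Rel t.cocycle (t.transport φ).cocycle :=
  Cocycle.rel_of_eq (fun _ => rfl) fun i j V hi hj => by
    refine Triv.g_eq (t.transport φ) (t.transport φ) i j V hi hj ?_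
    change _ • mres N hi (φ.hom.app (t.U i) (t.e i)) = mres N hj (φ.hom.app (t.U j) (t.e j))
    rw [← app_mres, ← app_mres, ← Scheme.Modules.Hom.app_smul]
    exact congrArg _ (g_smul t t i j V hi hj)

end Triv

/-- The structure sheaf as a module. -/
def unitMod (X : Scheme.{u}) : X.Modules := SheafOfModules.unit X.ringCatSheaf

/-- A function as a section of `unitMod`. -/
def unitEl {V : X.Opens} (r : Γ(X, V)) : Γ(unitMod X, V) := r

theorem smul_unitEl_one {V : X.Opens} (r : Γ(X, V)) : r • unitEl (1 : Γ(X, V)) = unitEl r :=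
  mul_one r

theorem mres_unitEl {V W : X.Opens} (h : V ≤ W) (r : Γ(X, W)) :
    mres (unitMod X) h (unitEl r) = unitEl (res h r) := rfl

/-- A generator yields an isomorphism of the pullback with the unit. -/
theorem nonempty_pullback_iso_unit {M : X.Modules} {U : X.Opens} {e : Γ(M, U)}
    (he : IsGenSection M e) :
    Nonempty ((Scheme.Modules.pullback U.ι).obj M ≅ SheafOfModules.unit U.toScheme.ringCatSheaf) := by
  let f : ∀ V : U.toScheme.Opens, Γ(X, U.ι ''ᵁ V) → Γ(M, U.ι ''ᵁ V) :=
    fun V r => r • mres M (U.ι_image_le V) e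
  have hf : ∀ V, Function.Bijective (f V) := fun V => he _ _
  let φ : (SheafOfModules.unit U.toScheme.ringCatSheaf : U.toScheme.Modules) ≅ M.restrict U.ι := by
    refine (SheafOfModules.fullyFaithfulForget _).preimageIso
      (PresheafOfModules.isoMk (fun V => ?_) ?_)
    · refine ModuleCat.isoMk (AddEquiv.toAddCommGrpIso (X := AddCommGrpCat.of Γ(U.toScheme, V.unop))
        (Y := AddCommGrpCat.of Γ(M, U.ι ''ᵁ V.unop)) (AddEquiv.ofBijective
        (AddMonoidHom.mk' (fun r => f V.unop ((U.ι.appIso V.unop).inv r)) fun r s => ?_) ?_)) ?_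
      · rw [map_add]
        exact add_smul _ _ _
      · exact (hf _).comp (ConcreteCategory.bijective_of_isIso (U.ι.appIso V.unop).inv)
      · intro (a : Γ(U.toScheme, V.unop))
        ext (r : Γ(U.toScheme, V.unop))
        change (U.ι.appIso V.unop).inv a • f _ ((U.ι.appIso V.unop).inv r) =
          f _ ((U.ι.appIso V.unop).inv (a * r))
        rw [map_mul]
        exact (mul_smul _ _ _).symm
    · intro V W g
      refine ModuleCat.hom_ext (LinearMap.ext fun (r : Γ(U.toScheme, V.unop)) => ?_)
      change f W.unop ((U.ι.appIso W.unop).inv (res (leOfHom g.unop) r)) =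
        mres M (U.ι.image_mono (leOfHom g.unop)) (f V.unop ((U.ι.appIso V.unop).inv r))
      simp only [f, mres_smul, mres_mres]
      congr 1
      exact ConcreteCategory.congr_hom (U.ι.appIso_inv_naturality g) r
  exact ⟨((Scheme.Modules.restrictFunctorIsoPullback U.ι).app M).symm ≪≫ φ.symm⟩

/-- An invertible module has a generator near every point. -/
theorem exists_isGenSection {M : X.Modules} (hM : Scheme.Modules.IsInvertible M) (x : X) :
    ∃ (U : X.Opens) (_ : x ∈ U) (e : Γ(M, U)), IsGenSection M e := by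
  obtain ⟨U, hx, ⟨ψ⟩⟩ := hM.exists_trivialization x
  let χ : unitMod U.toScheme ≅ M.restrict U.ι :=
    ψ.symm ≪≫ ((Scheme.Modules.restrictFunctorIsoPullback U.ι).app M).symm
  let e₀ : Γ(M, U.ι ''ᵁ ⊤) := χ.hom.app ⊤ (unitEl (1 : Γ(U.toScheme, ⊤)))
  refine ⟨U, hx, mres M U.ι_image_top.ge e₀, fun V h => ?_⟩
  obtain ⟨V', rfl⟩ : ∃ V' : U.toScheme.Opens, U.ι ''ᵁ V' = V := ⟨U.ι ⁻¹ᵁ V, by
    rw [Scheme.Hom.image_preimage_eq_opensRange_inf, Scheme.Opens.opensRange_ι, inf_eq_right.mpr h]⟩
  have hb : Function.Bijective (χ.hom.app V') := ConcreteCategory.bijective_of_isIso _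
  have key : (fun r : Γ(X, U.ι ''ᵁ V') => r • mres M h (mres M U.ι_image_top.ge e₀)) =
      (M.restrictAppIso U.ι V').hom ∘ χ.hom.app V' ∘ unitEl ∘ (U.ι.appIso V').hom := by
    funext r
    simp only [Function.comp_apply, mres_mres]
    have h1 : χ.hom.app V' (unitEl ((U.ι.appIso V').hom r)) =
        (U.ι.appIso V').hom r • χ.hom.app V' (unitEl (1 : Γ(U.toScheme, V'))) := by
      rw [← Scheme.Modules.Hom.app_smul, smul_unitEl_one]
    have h2 : χ.hom.app V' (unitEl (1 : Γ(U.toScheme, V'))) =
        mres (M.restrict U.ι) le_top (χ.hom.app ⊤ (unitEl (1 : Γ(U.toScheme, ⊤)))) := by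
      rw [← app_mres, mres_unitEl, map_one]
    rw [h1, h2]
    change r • mres M (U.ι.image_mono (le_top : V' ≤ ⊤)) e₀ =
      (U.ι.appIso V').inv ((U.ι.appIso V').hom r) • mres M (U.ι.image_mono (le_top : V' ≤ ⊤)) e₀
    rw [Iso.hom_inv_id_apply]
  rw [key]
  exact (ConcreteCategory.bijective_of_isIso (M.restrictAppIso U.ι V').hom).comp
    (hb.comp (Function.bijective_id.comp (ConcreteCategory.bijective_of_isIso (U.ι.appIso V').hom)))

/-- A chosen trivialisation of an invertible module. -/
def Triv.ofInvertible {M : X.Modules} (hM : Scheme.Modules.IsInvertible M) : Triv M X where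
  U x := (exists_isGenSection hM x).choose
  cover x := ⟨x, (exists_isGenSection hM x).choose_spec.choose⟩
  e x := (exists_isGenSection hM x).choose_spec.choose_spec.choose
  gen x := (exists_isGenSection hM x).choose_spec.choose_spec.choose_spec

/-- The tautological trivialisation of the sheaf of sections. -/
def Triv.ofCocycle (c : Cocycle X ι) : Triv (secModules c) ι where
  U := c.U
  cover := c.cover
  e i := ofSec (Sec.gen c i _ le_rfl)
  gen i V h := ((Sec.isGen_gen (c := c) i le_rfl).restrict h).smul_bijective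

theorem Triv.ofCocycle_rel (c : Cocycle X ι) : Cocycle.Rel (Triv.ofCocycle c).cocycle c :=
  Cocycle.rel_of_eq (fun _ => rfl) fun i j V hi hj => by
    refine (Triv.g_eq _ _ i j V hi hj ?_).symm
    refine Sec.ext (c := c) fun l W hW hl => ?_
    change res hW (c.g i j V hi hj) * c.g l i W hl _ = c.g l j W hl _
    rw [Cocycle.res_g, mul_comm, c.g_mul]

theorem isInvertible_secModules (c : Cocycle X ι) : Scheme.Modules.IsInvertible (secModules c) :=
  ⟨fun x => ⟨c.U (c.cover x).choose, (c.cover x).choose_spec,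
    nonempty_pullback_iso_unit ((Triv.ofCocycle c).gen _)⟩⟩

/-- The coordinates of a section of `M` form a section of the cocycle. -/
theorem Triv.existsUnique_coord {M : X.Modules} (t : Triv M ι) (i : ι) (V : X.Opens)
    (hi : V ≤ t.U i) (s : Γ(M, V)) : ∃! r : Γ(X, V), r • mres M hi (t.e i) = s :=
  (Function.bijective_iff_existsUnique _).mp (t.gen i V hi) s

/-- Coordinates of sections. -/
def Triv.toSecFun {M : X.Modules} (t : Triv M ι) (W : X.Opens) (s : Γ(M, W)) :
    Sec t.cocycle W where
  val i V hW hi := (t.existsUnique_coord i V hi (mres M hW s)).exists.choose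
  res_val i V V' h hW hi := by
    apply (t.gen i V' (h.trans hi)).1
    change res h _ • _ = _ • _
    rw [(t.existsUnique_coord i V' (h.trans hi) (mres M (h.trans hW) s)).exists.choose_spec,
      ← mres_mres M h hi, ← mres_smul,
      (t.existsUnique_coord i V hi (mres M hW s)).exists.choose_spec, mres_mres]
  g_val i j V hW hi hj := by
    apply (t.gen i V hi).1
    change (t.cocycle.g i j V hi hj * _) • mres M hi (t.e i) = _ • mres M hi (t.e i)
    rw [(t.existsUnique_coord i V hi (mres M hW s)).exists.choose_spec, mul_comm, mul_smul]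
    change _ • (Triv.g t t i j V hi hj • _) = _
    rw [Triv.g_smul, (t.existsUnique_coord j V hj (mres M hW s)).exists.choose_spec]

theorem Triv.toSecFun_spec {M : X.Modules} (t : Triv M ι) {W : X.Opens} (s : Γ(M, W)) (i : ι)
    (V : X.Opens) (hW : V ≤ W) (hi : V ≤ t.U i) :
    (t.toSecFun W s).val i V hW hi • mres M hi (t.e i) = mres M hW s :=
  (t.existsUnique_coord i V hi (mres M hW s)).exists.choose_spec

theorem mres_self (M : X.Modules) {V : X.Opens} (h : V ≤ V) (s : Γ(M, V)) : mres M h s = s := by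
  change M.presheaf.map (𝟙 (op V)) s = s
  simp

theorem module_ext {M : X.Modules} {α : Type u} (U : α → X.Opens) {W : X.Opens}
    (hU : W ≤ iSup U) {s t : Γ(M, W)}
    (h : ∀ a V (hV : V ≤ W), V ≤ U a → mres M hV s = mres M hV t) : s = t := by
  refine TopCat.Sheaf.eq_of_locally_eq' (⟨M.presheaf, M.isSheaf⟩ : TopCat.Sheaf Ab X)
    (fun a => W ⊓ U a) W (fun a => homOfLE inf_le_left) ?_ s t fun a => h a _ _ inf_le_right
  intro x hx
  obtain ⟨a, ha⟩ := Opens.mem_iSup.mp (hU hx)
  exact Opens.mem_iSup.mpr ⟨a, hx, ha⟩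

/-- The sheaf of modules with a trivialisation is the sheaf of sections of its cocycle. -/
theorem Triv.nonempty_iso {M : X.Modules} (t : Triv M ι) :
    Nonempty (M ≅ secModules t.cocycle) := by
  have hlin : ∀ W (r : Γ(X, W)) s, t.toSecFun W (r • s) = r • t.toSecFun W s := fun W r s =>
    Sec.ext fun i V hW hi => (t.gen i V hi).1 (by
      change _ • mres M hi (t.e i) = _ • mres M hi (t.e i)
      rw [t.toSecFun_spec, Sec.smul_val, mul_smul, t.toSecFun_spec, mres_smul])
  have hadd : ∀ W s s', t.toSecFun W (s + s') = t.toSecFun W s + t.toSecFun W s' := fun W s s' =>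
    Sec.ext fun i V hW hi => (t.gen i V hi).1 (by
      change _ • mres M hi (t.e i) = _ • mres M hi (t.e i)
      rw [t.toSecFun_spec, Sec.add_val, add_smul, t.toSecFun_spec, t.toSecFun_spec]
      exact map_add _ _ _)
  have hbij : ∀ W, Function.Bijective (t.toSecFun W) := by
    intro W
    have hcov : W ≤ iSup t.U := fun x _ => Opens.mem_iSup.mpr (t.cover x)
    refine ⟨fun s s' h => module_ext t.U hcov fun i V hV hi => ?_, fun σ => ?_⟩
    · rw [← t.toSecFun_spec s i V hV hi, ← t.toSecFun_spec s' i V hV hi, h]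
    · obtain ⟨s, hs, -⟩ := TopCat.Sheaf.existsUnique_gluing'
        (⟨M.presheaf, M.isSheaf⟩ : TopCat.Sheaf Ab X) (fun i => W ⊓ t.U i) W
        (fun i => homOfLE inf_le_left) (fun x hx => Opens.mem_iSup.mpr
          ⟨(t.cover x).choose, hx, (t.cover x).choose_spec⟩)
        (fun i => σ.val i _ inf_le_left inf_le_right • mres M inf_le_right (t.e i)) (by
          intro i j
          change mres M _ (_ • _) = mres M _ (_ • _)
          rw [mres_smul, mres_smul, Sec.res_val, Sec.res_val, mres_mres, mres_mres]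
          rw [← σ.g_val i j _ _ (inf_le_left.trans inf_le_right) (inf_le_right.trans inf_le_right),
            mul_comm, mul_smul]
          exact congrArg _ (Triv.g_smul t t i j _ _ _))
      refine ⟨s, Sec.ext fun i V hV hi => (t.gen i V hi).1 ?_⟩
      change _ • mres M hi (t.e i) = _ • mres M hi (t.e i)
      have h := congrArg (mres M (le_inf hV hi)) (show mres M (inf_le_left : W ⊓ t.U i ≤ W) s =
        σ.val i _ inf_le_left inf_le_right • mres M inf_le_right (t.e i) from hs i)
      rw [mres_smul, Sec.res_val, mres_mres, mres_mres] at h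
      rw [t.toSecFun_spec]
      exact h
  refine ⟨(SheafOfModules.fullyFaithfulForget _).preimageIso (PresheafOfModules.isoMk
    (fun W => LinearEquiv.toModuleIso (LinearEquiv.ofBijective
      ({ toFun := fun s => t.toSecFun W.unop s
         map_add' := fun s s' => hadd W.unop s s'
         map_smul' := fun r s => hlin W.unop r s } : _ →ₗ[_] _) (hbij W.unop))) ?_)⟩
  intro W W' g
  ext (s : Γ(M, W.unop))
  refine Sec.ext (c := t.cocycle) fun i V hV hi => (t.gen i V hi).1 ?_
  change (t.toSecFun W'.unop (mres M (leOfHom g.unop) s)).val i V hV hi • mres M hi (t.e i) =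
    (t.toSecFun W.unop s).val i V (hV.trans (leOfHom g.unop)) hi • mres M hi (t.e i)
  rw [t.toSecFun_spec, t.toSecFun_spec, mres_mres]

/-- Comparable cocycles have isomorphic sheaves of sections. -/
theorem nonempty_iso_of_rel {c : Cocycle X ι} {c' : Cocycle X κ} (h : Cocycle.Rel c c') :
    Nonempty (secModules c ≅ secModules c') := by
  obtain ⟨e⟩ := h
  refine ⟨(SheafOfModules.fullyFaithfulForget _).preimageIso (PresheafOfModules.isoMk
    (fun W => LinearEquiv.toModuleIso (LinearEquiv.ofBijective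
      ({ toFun := fun s : Sec c W.unop => Sec.mapComp e s
         map_add' := fun s s' => Sec.mapComp_add e s s'
         map_smul' := fun r s => Sec.mapComp_smul e r s } : _ →ₗ[_] _) ?_)) ?_)⟩
  · refine ⟨fun s s' h => ?_, fun s => ⟨Sec.mapComp e.symm s, ?_⟩⟩
    · exact (Sec.mapComp_symm e s).symm.trans ((congrArg _ h).trans (Sec.mapComp_symm e s'))
    · refine Sec.ext fun a V hV ha => sections_ext c.U (c.le_iSup V) fun i V' h' hi => ?_
      change res h' ((Sec.mapComp e (Sec.mapComp e.symm s)).val a V hV ha) = _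
      rw [Sec.res_val, Sec.res_val]
      apply (e.isUnit_φ i a V' hi (h'.trans ha)).mul_left_cancel
      rw [Sec.mapComp_spec,
        ← Sec.mapComp_spec e.symm s i V' (h'.trans hV) hi a (h'.trans ha), ← mul_assoc]
      change _ = e.φ i a V' hi (h'.trans ha) * ↑(e.isUnit_φ i a V' hi (h'.trans ha)).unit⁻¹ * _
      rw [IsUnit.mul_val_inv, one_mul]
  · intro W W' g
    ext (s : Sec c W.unop)
    exact Sec.mapComp_restrict e (leOfHom g.unop) s

/-- The class of an invertible module. -/
def picClass {M : X.Modules} (hM : Scheme.Modules.IsInvertible M) : Pic X :=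
  Pic.mk (Triv.ofInvertible hM).cocycle

theorem picClass_eq {M : X.Modules} (hM : Scheme.Modules.IsInvertible M) (t : Triv M ι) :
    picClass hM = Pic.mk t.cocycle :=
  Pic.mk_eq_mk_iff.mpr (Triv.rel _ _)

theorem picClass_eq_iff {M N : X.Modules} (hM : Scheme.Modules.IsInvertible M)
    (hN : Scheme.Modules.IsInvertible N) : picClass hM = picClass hN ↔ Nonempty (M ≅ N) := by
  constructor
  · intro h
    obtain ⟨a⟩ := (Triv.ofInvertible hM).nonempty_iso
    obtain ⟨b⟩ := nonempty_iso_of_rel (Pic.mk_eq_mk_iff.mp h)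
    obtain ⟨d⟩ := (Triv.ofInvertible hN).nonempty_iso
    exact ⟨a ≪≫ b ≪≫ d.symm⟩
  · rintro ⟨φ⟩
    rw [picClass_eq hN ((Triv.ofInvertible hM).transport φ)]
    exact Pic.mk_eq_mk_iff.mpr (Triv.transport_cocycle_rel _ _)

theorem picClass_secModules (c : Cocycle X ι) :
    picClass (isInvertible_secModules c) = Pic.mk c :=
  (picClass_eq _ (Triv.ofCocycle c)).trans (Pic.mk_eq_mk_iff.mpr (Triv.ofCocycle_rel c))

/-- The trivialisation of the unit. -/
def Triv.unit (X : Scheme.{u}) :
    Triv (SheafOfModules.unit X.ringCatSheaf : X.Modules) PUnit.{u + 1} where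
  U _ := ⊤
  cover _ := ⟨⟨⟩, trivial⟩
  e _ := (1 : Γ(X, ⊤))
  gen _ V h := by
    have h1 : ∀ r : Γ(X, V), r * res h 1 = r := fun r => by rw [map_one, mul_one]
    exact ⟨fun a b hab => (h1 a).symm.trans (hab.trans (h1 b)), fun r => ⟨r, h1 r⟩⟩

theorem picClass_unit (hM : Scheme.Modules.IsInvertible
    (SheafOfModules.unit X.ringCatSheaf : X.Modules)) : picClass hM = 1 := by
  rw [picClass_eq hM (Triv.unit X), Pic.one_def, Pic.mk_eq_mk_iff]
  refine Cocycle.rel_of_eq (fun _ => rfl) fun i j V hi hj => ?_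
  exact (Triv.g_eq _ _ _ _ _ hi hj (one_smul Γ(X, V) _)).symm

/-- The natural map from sections to pulled-back sections. -/
def pullSec (f : X ⟶ Y) (c : Cocycle Y ι) {W : Y.Opens} (s : Sec c W) :
    Sec (c.pull f) (f ⁻¹ᵁ W) where
  val i V hW hi := appLEHom f (U := W ⊓ c.U i) (show V ≤ f ⁻¹ᵁ (W ⊓ c.U i) from le_inf hW hi)
    (s.val i _ inf_le_left inf_le_right)
  res_val i V V' h hW hi := by simp
  g_val i j V hW hi hj := by
    have hV : V ≤ f ⁻¹ᵁ (W ⊓ (c.U i ⊓ c.U j)) := le_inf hW (le_inf hi hj)
    have h := congrArg (appLEHom f hV) (s.g_val i j _ inf_le_left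
      (inf_le_right.trans inf_le_left) (inf_le_right.trans inf_le_right))
    rw [map_mul,
      ← c.res_g i j (c.U i ⊓ c.U j) _ inf_le_right inf_le_left inf_le_right,
      ← s.res_val j (W ⊓ c.U j) _ (le_inf inf_le_left (inf_le_right.trans inf_le_right))
        inf_le_left inf_le_right,
      ← s.res_val i (W ⊓ c.U i) _ (le_inf inf_le_left (inf_le_right.trans inf_le_left))
        inf_le_left inf_le_right, appLEHom_res, appLEHom_res, appLEHom_res] at h
    exact h

theorem pullSec_gen (f : X ⟶ Y) (c : Cocycle Y ι) (i : ι) :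
    pullSec f c (Sec.gen c i (c.U i) le_rfl) = Sec.gen (c.pull f) i (f ⁻¹ᵁ c.U i) le_rfl := by
  ext j V hV hj
  exact (Cocycle.pull_g f c j i V (c.U i ⊓ c.U j) (le_inf hV hj) inf_le_right inf_le_left).symm

theorem pullSec_add (f : X ⟶ Y) (c : Cocycle Y ι) {W : Y.Opens} (s s' : Sec c W) :
    pullSec f c (s + s') = pullSec f c s + pullSec f c s' :=
  Sec.ext fun i V hW hi => map_add _ _ _

theorem pullSec_smul (f : X ⟶ Y) (c : Cocycle Y ι) {W : Y.Opens} (r : Γ(Y, W)) (s : Sec c W) :
    pullSec f c (r • s) = (f.app W r : Γ(X, f ⁻¹ᵁ W)) • pullSec f c s :=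
  Sec.ext fun i V hW hi => by
    change appLEHom f _ (res _ r * _) = res hW (f.app W r) * appLEHom f _ _
    rw [map_mul, appLEHom_res]
    congr 1

theorem pullSec_restrict (f : X ⟶ Y) (c : Cocycle Y ι) {W W' : Y.Opens} (h : W' ≤ W)
    (s : Sec c W) : pullSec f c (s.restrict h) = (pullSec f c s).restrict (f.preimage_mono h) :=
  Sec.ext fun i V hW hi => by
    change appLEHom f _ (s.val i _ _ _) = appLEHom f _ (s.val i _ _ _)
    rw [← s.res_val i (W ⊓ c.U i) (W' ⊓ c.U i) (inf_le_inf_right _ h) inf_le_left inf_le_right,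
      appLEHom_res]

/-- Sections of a cocycle map to the pushforward of the pulled-back sections. -/
def secToPushforward (f : X ⟶ Y) (c : Cocycle Y ι) :
    secModules c ⟶ (Scheme.Modules.pushforward f).obj (secModules (c.pull f)) :=
  ⟨PresheafOfModules.homMk
    { app := fun W => AddCommGrpCat.ofHom
        (AddMonoidHom.mk' (fun s : Sec c W.unop => pullSec f c s) (pullSec_add f c))
      naturality := fun W W' g => by
        ext (s : Sec c W.unop)
        exact pullSec_restrict f c (leOfHom g.unop) s }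
    fun W r s => pullSec_smul f c r s⟩

/-- A hom of invertible modules hitting local generators is an isomorphism. -/
theorem isIso_of_hits_gen {M N : X.Modules} (hM : Scheme.Modules.IsInvertible M) (ψ : M ⟶ N)
    (h : ∀ x : X, ∃ (U : X.Opens) (_ : x ∈ U) (s : Γ(M, U)), IsGenSection N (ψ.app U s)) :
    IsIso ψ := by
  choose U hxU s hs using h
  choose U' hxU' e he using exists_isGenSection hM
  let V : X → X.Opens := fun x => U x ⊓ U' x
  have hcov : ∀ W : X.Opens, W ≤ iSup V := fun W x _ =>
    Opens.mem_iSup.mpr ⟨x, hxU x, hxU' x⟩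
  have hloc : ∀ x W, W ≤ V x → Function.Bijective (ψ.app W) := by
    intro x W hW
    have hU : W ≤ U x := hW.trans inf_le_left
    have hU' : W ≤ U' x := hW.trans inf_le_right
    obtain ⟨b, hb⟩ := (he x W hU').2 (mres M hU (s x))
    obtain ⟨a, ha⟩ := (hs x W hU).2 (ψ.app W (mres M hU' (e x)))
    have hba : b * a = 1 := (hs x W hU).1 <| by
      simp only at ha hb ⊢
      rw [mul_smul, ha, ← Scheme.Modules.Hom.app_smul, hb, one_smul, app_mres]
    have key : ∀ r : Γ(X, W), ψ.app W (r • mres M hU' (e x)) =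
        (r * a) • mres N hU (ψ.app _ (s x)) := fun r => by
      rw [Scheme.Modules.Hom.app_smul, mul_smul]
      exact congrArg _ ha.symm
    constructor
    · intro p q hpq
      obtain ⟨r, rfl⟩ := (he x W hU').2 p
      obtain ⟨r', rfl⟩ := (he x W hU').2 q
      simp only [key] at hpq
      have := (hs x W hU).1 hpq
      congr 1
      calc r = r * a * b := by rw [mul_assoc, mul_comm a, hba, mul_one]
        _ = r' := by rw [this, mul_assoc, mul_comm a, hba, mul_one]
    · intro q
      obtain ⟨r, rfl⟩ := (hs x W hU).2 q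
      exact ⟨(r * b) • mres M hU' (e x), by simp only [key, mul_assoc, hba, mul_one]⟩
  rw [Scheme.Modules.Hom.isIso_iff_isIso_app]
  intro W
  rw [ConcreteCategory.isIso_iff_bijective]
  constructor
  · intro p q hpq
    refine module_ext V (hcov W) fun x W' hW' hx => (hloc x W' hx).1 ?_
    rw [app_mres, app_mres, hpq]
  · intro q
    have hp : ∀ x, ∃ p, ψ.app (W ⊓ V x) p = mres N inf_le_left q := fun x =>
      (hloc x _ inf_le_right).2 _
    choose p hp using hp
    obtain ⟨P, hP, -⟩ := TopCat.Sheaf.existsUnique_gluing'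
      (⟨M.presheaf, M.isSheaf⟩ : TopCat.Sheaf Ab X) (fun x => W ⊓ V x) W
      (fun x => homOfLE inf_le_left)
      (fun y hy => Opens.mem_iSup.mpr ⟨y, hy, hxU y, hxU' y⟩) p (by
        intro x y
        refine (hloc x _ (inf_le_left.trans inf_le_right)).1 ?_
        change ψ.app _ (mres M _ (p x)) = ψ.app _ (mres M _ (p y))
        rw [app_mres, app_mres, hp, hp, mres_mres, mres_mres])
    refine ⟨P, module_ext V (hcov W) fun x W' hW' hx => ?_⟩
    have h' := congrArg (mres N (le_inf hW' hx)) (hp x)
    rw [mres_mres, ← app_mres, show p x = mres M inf_le_left P from (hP x).symm, mres_mres] at h'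
    rw [← app_mres]
    exact h'

theorem nonempty_pullback_secModules_iso (f : X ⟶ Y) (c : Cocycle Y ι) :
    Nonempty ((Scheme.Modules.pullback f).obj (secModules c) ≅ secModules (c.pull f)) := by
  let adj := Scheme.Modules.pullbackPushforwardAdjunction f
  let ψ := (adj.homEquiv _ _).symm (secToPushforward f c)
  have hψ : adj.unit.app (secModules c) ≫ (Scheme.Modules.pushforward f).map ψ =
      secToPushforward f c :=
    (adj.homEquiv_unit _ _ ψ).symm.trans (Equiv.apply_symm_apply _ _)
  have : IsIso ψ := by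
    refine isIso_of_hits_gen ((isInvertible_secModules c).pullback f) ψ fun x => ?_
    obtain ⟨i, hi⟩ := (c.pull f).cover x
    let s₀ := ofSec (Sec.gen c i (c.U i) le_rfl)
    refine ⟨f ⁻¹ᵁ c.U i, hi, (adj.unit.app (secModules c)).app (c.U i) s₀, ?_⟩
    have h1 : ψ.app (f ⁻¹ᵁ c.U i) ((adj.unit.app (secModules c)).app (c.U i) s₀) =
        ofSec (Sec.gen (c.pull f) i (f ⁻¹ᵁ c.U i) le_rfl) := by
      rw [← pullSec_gen]
      exact CategoryTheory.congr_fun
        (congrArg (fun φ => Scheme.Modules.Hom.app φ (c.U i)) hψ) s₀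
    rw [h1]
    exact (Triv.ofCocycle (c.pull f)).gen i
  exact ⟨asIso ψ⟩

theorem picClass_pullback (f : X ⟶ Y) {M : Y.Modules} (hM : Scheme.Modules.IsInvertible M)
    (hfM : Scheme.Modules.IsInvertible ((Scheme.Modules.pullback f).obj M)) :
    picClass hfM = Pic.map f (picClass hM) := by
  obtain ⟨a⟩ := (Triv.ofInvertible hM).nonempty_iso
  obtain ⟨b⟩ := nonempty_pullback_secModules_iso f (Triv.ofInvertible hM).cocycle
  rw [(picClass_eq_iff hfM (isInvertible_secModules _)).mpr
    ⟨(Scheme.Modules.pullback f).mapIso a ≪≫ b⟩, picClass_secModules, picClass, Pic.map_mk]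

end Fermat.Agent.Jac
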