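import Fermat.Agent.Jac.ModulesPic

/-!
Products and pairings of sections of cocycles, and dual bases over affine opens.
-/

set_option autoImplicit false
set_option linter.unusedVariables false

noncomputable section

open CategoryTheory AlgebraicGeometry TopologicalSpace Opposite

namespace Fermat.Agent.Jac

universe u w

variable {X Y : Scheme.{u}} {ι κ : Type u}

namespace Cocycle

/-- A comparison induces one of the inverse cocycles. -/
def Comparison.inv {c : Cocycle X ι} {c' : Cocycle X κ} (e : Comparison c c') :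
    Comparison c.inv c'.inv where
  φ i a V hi ha := e.symm.φ a i V ha hi
  res_φ i a V W h hi ha := e.symm.res_φ a i V W h ha hi
  isUnit_φ i a V hi ha := e.symm.isUnit_φ a i V ha hi
  g_φ i j a V hi hj ha := by rw [mul_comm]; exact e.symm.φ_g a j i V ha hj hi
  φ_g i a b V hi ha hb := by rw [mul_comm]; exact e.symm.g_φ b a i V hb ha hi

end Cocycle

namespace Sec

variable {c : Cocycle X ι} {c' : Cocycle X κ} {W : X.Opens}

/-- The product of sections, as a section of the product cocycle. -/
def mulSec (s : Sec c W) (t : Sec c' W) : Sec (c.mul c') W where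
  val p V hW hp := s.val p.1 V hW (hp.trans inf_le_left) * t.val p.2 V hW (hp.trans inf_le_right)
  res_val p V V' h hW hp := by simp
  g_val p q V hW hp hq := by
    change _ * _ * (_ * _) = _
    rw [mul_mul_mul_comm, s.g_val, t.g_val]

@[simp] theorem mulSec_val (s : Sec c W) (t : Sec c' W) (p : ι × κ) (V : X.Opens) (hW hp) :
    (s.mulSec t).val p V hW hp =
      s.val p.1 V hW (hp.trans inf_le_left) * t.val p.2 V hW (hp.trans inf_le_right) := rfl

theorem exists_pair (η : Sec c.inv W) (x : Sec c W) :
    ∃! a : Γ(X, W), ∀ i V (hW : V ≤ W) (hi : V ≤ c.U i),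
      res hW a = η.val i V hW hi * x.val i V hW hi :=
  sections_glue c.U (c.le_iSup W) (fun i V hW hi => η.val i V hW hi * x.val i V hW hi)
    (fun i V V' h hW hi => by simp)
    (fun i j V hW hi hj => by
      have h1 : c.g j i V hj hi * η.val j V hW hj = η.val i V hW hi := η.g_val i j V hW hi hj
      rw [← h1, ← x.g_val i j V hW hi hj,
        mul_mul_mul_comm, c.g_mul, c.g_self, one_mul])

/-- The pairing between sections of a cocycle and of its inverse. -/
def pair (η : Sec c.inv W) (x : Sec c W) : Γ(X, W) := (exists_pair η x).exists.choose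

theorem res_pair (η : Sec c.inv W) (x : Sec c W) (i : ι) (V : X.Opens) (hW : V ≤ W)
    (hi : V ≤ c.U i) : res hW (pair η x) = η.val i V hW hi * x.val i V hW hi :=
  (exists_pair η x).exists.choose_spec i V hW hi

theorem pair_eq {η : Sec c.inv W} {x : Sec c W} {a : Γ(X, W)}
    (h : ∀ i V (hW : V ≤ W) (hi : V ≤ c.U i), res hW a = η.val i V hW hi * x.val i V hW hi) :
    pair η x = a :=
  (exists_pair η x).unique (exists_pair η x).exists.choose_spec h

theorem pair_add_right (η : Sec c.inv W) (x y : Sec c W) :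
    pair η (x + y) = pair η x + pair η y :=
  pair_eq fun i V hW hi => by
    rw [map_add, res_pair η x i V hW hi, res_pair η y i V hW hi, add_val, mul_add]

theorem pair_add_left (η θ : Sec c.inv W) (x : Sec c W) :
    pair (η + θ) x = pair η x + pair θ x :=
  pair_eq fun i V hW hi => by
    rw [map_add, res_pair η x i V hW hi, res_pair θ x i V hW hi, add_val, add_mul]

theorem pair_smul_right (η : Sec c.inv W) (r : Γ(X, W)) (x : Sec c W) :
    pair η (r • x) = r * pair η x :=
  pair_eq fun i V hW hi => by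
    rw [map_mul, res_pair η x i V hW hi, smul_val, mul_left_comm]

theorem pair_smul_left (η : Sec c.inv W) (r : Γ(X, W)) (x : Sec c W) :
    pair (r • η) x = r * pair η x :=
  pair_eq fun i V hW hi => by
    rw [map_mul, res_pair η x i V hW hi, smul_val, mul_assoc]

@[simp] theorem pair_zero_right (η : Sec c.inv W) : pair η (0 : Sec c W) = 0 :=
  pair_eq fun i V hW hi => by rw [map_zero, zero_val, mul_zero]

theorem pair_sum_right {α : Type*} (s : Finset α) (η : Sec c.inv W) (f : α → Sec c W) :
    pair η (∑ a ∈ s, f a) = ∑ a ∈ s, pair η (f a) := by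
  classical
  induction s using Finset.induction_on with
  | empty => simp
  | insert a s ha ih => rw [Finset.sum_insert ha, pair_add_right, ih, Finset.sum_insert ha]

theorem pair_restrict {W' : X.Opens} (h : W' ≤ W) (η : Sec c.inv W) (x : Sec c W) :
    pair (η.restrict h) (x.restrict h) = res h (pair η x) :=
  pair_eq fun i V hW hi => by
    rw [res_res, res_pair η x i V (hW.trans h) hi, restrict_val, restrict_val]

theorem pair_swap (η : Sec c.inv W) (x : Sec c W) :
    pair (c := c.inv) (x : Sec c.inv.inv W) η = pair η x :=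
  pair_eq (c := c.inv) fun i V hW hi => (res_pair η x i V hW hi).trans (mul_comm _ _)

theorem isGen_of_isUnit_pair {η : Sec c.inv W} {x : Sec c W} (h : IsUnit (pair η x)) : x.IsGen :=
  fun i V hW hi => by
    have h' := h.map (res hW)
    rw [res_pair η x i V hW hi] at h'
    exact (IsUnit.mul_iff.mp h').2

theorem pair_gen (i : ι) (hW : W ≤ c.U i) :
    pair (gen c.inv i W hW) (gen c i W hW) = 1 :=
  pair_eq fun j V hV hj => by
    rw [map_one]
    exact ((c.g_mul i j i V (hV.trans hW) hj (hV.trans hW)).trans (c.g_self i V _)).symm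

/-- Cross relation for sections of a line bundle. -/
theorem pair_smul_comm (η : Sec c.inv W) (x y : Sec c W) : pair η x • y = pair η y • x :=
  ext fun i V hW hi => by
    rw [smul_val, smul_val, res_pair η x i V hW hi, res_pair η y i V hW hi, mul_right_comm]

theorem pair_mul_pair_comm (η θ : Sec c.inv W) (x y : Sec c W) :
    pair η x * pair θ y = pair η y * pair θ x := by
  rw [← pair_smul_right, pair_smul_comm η x y, pair_smul_right]

theorem pair_mulSec {ι' : Type u} {d : Cocycle X ι'} (η : Sec c.inv W) (θ : Sec d.inv W)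
    (x : Sec c W) (y : Sec d W) :
    pair (c := c.mul d) (η.mulSec θ : Sec (c.mul d).inv W) (x.mulSec y) = pair η x * pair θ y :=
  pair_eq fun p V hW hp => by
    rw [map_mul, res_pair η x p.1 V hW (hp.trans inf_le_left),
      res_pair θ y p.2 V hW (hp.trans inf_le_right)]
    exact mul_mul_mul_comm _ _ _ _

theorem pair_mapComp (e : Cocycle.Comparison c c') (η : Sec c.inv W) (x : Sec c W) :
    pair (mapComp e.inv η) (mapComp e x) = pair η x :=
  pair_eq fun a V hW ha => sections_ext c.U (c.le_iSup V) fun i V' h hi => by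
    rw [res_res, res_pair η x i V' (h.trans hW) hi, map_mul, res_val, res_val,
      ← mapComp_spec e x a V' (h.trans hW) (h.trans ha) i hi,
      ← mapComp_spec e.inv η a V' (h.trans hW) (h.trans ha) i hi, mul_mul_mul_comm]
    have : e.inv.φ i a V' hi (h.trans ha) * e.φ i a V' hi (h.trans ha) = 1 :=
      IsUnit.val_inv_mul _
    rw [this, one_mul]

/-- Pullback of sections of an inverse cocycle. -/
def pullInv (f : Y ⟶ X) {W : X.Opens} (η : Sec c.inv W) : Sec (c.pull f).inv (f ⁻¹ᵁ W) where
  val i V hW hi := (pullSec f c.inv η).val i V hW hi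
  res_val i V V' h hW hi := (pullSec f c.inv η).res_val i V V' h hW hi
  g_val i j V hW hi hj := by
    have h := (pullSec f c.inv η).g_val i j V hW hi hj
    have e : (c.pull f).g j i V hj hi = (c.inv.pull f).g i j V hi hj :=
      Cocycle.pull_g f c j i V (c.U i ⊓ c.U j) (le_inf hi hj) inf_le_right inf_le_left
    change (c.pull f).g j i V hj hi * _ = _
    rw [e]
    exact h

theorem pair_pullSec (f : Y ⟶ X) {W : X.Opens} (η : Sec c.inv W) (x : Sec c W) :
    pair (c := c.pull f) (pullInv f η) (pullSec f c x) =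
      appLEHom f le_rfl (pair η x) :=
  pair_eq fun i V hW hi => by
    rw [res_appLEHom]
    change _ = appLEHom f (U := W ⊓ c.U i) (le_inf hW hi)
        (η.val i (W ⊓ c.U i) inf_le_left inf_le_right) *
      appLEHom f (U := W ⊓ c.U i) (le_inf hW hi) (x.val i (W ⊓ c.U i) inf_le_left inf_le_right)
    rw [← map_mul, ← res_pair η x i (W ⊓ c.U i) inf_le_left inf_le_right, appLEHom_res]

/-- A section as a section of the double inverse. -/
def toInvInv (x : Sec c W) : Sec c.inv.inv W := ⟨x.val, x.res_val, x.g_val⟩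

theorem pair_toInvInv (x : Sec c W) (η : Sec c.inv W) :
    pair (c := c.inv) x.toInvInv η = pair η x :=
  pair_eq (c := c.inv) fun i V hW hi => (res_pair η x i V hW hi).trans (mul_comm _ _)

theorem restrict_toInvInv {W' : X.Opens} (h : W' ≤ W) (x : Sec c W) :
    x.toInvInv.restrict h = (x.restrict h).toInvInv := rfl

theorem restrict_mulSec {W' : X.Opens} (h : W' ≤ W) (x : Sec c W) (y : Sec c' W) :
    (x.mulSec y).restrict h = (x.restrict h).mulSec (y.restrict h) := rfl

/-- The product of dual sections. -/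
def mulInv (η : Sec c.inv W) (θ : Sec c'.inv W) : Sec (c.mul c').inv W :=
  ⟨(η.mulSec θ).val, (η.mulSec θ).res_val, (η.mulSec θ).g_val⟩

theorem restrict_mulInv {W' : X.Opens} (h : W' ≤ W) (η : Sec c.inv W) (θ : Sec c'.inv W) :
    (mulInv η θ).restrict h = mulInv (η.restrict h) (θ.restrict h) := rfl

theorem pair_mulInv (η : Sec c.inv W) (θ : Sec c'.inv W) (x : Sec c W) (y : Sec c' W) :
    pair (mulInv η θ) (x.mulSec y) = pair η x * pair θ y :=
  pair_eq fun p V hW hp => by
    rw [map_mul, res_pair η x p.1 V hW (hp.trans inf_le_left),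
      res_pair θ y p.2 V hW (hp.trans inf_le_right)]
    exact mul_mul_mul_comm _ _ _ _

theorem exists_glue {α : Type w} (P : α → X.Opens) (hP : W ≤ iSup P)
    (s : ∀ a W', W' ≤ W → W' ≤ P a → Sec c W')
    (nat : ∀ a W' W'' (h : W'' ≤ W') (hW : W' ≤ W) (ha : W' ≤ P a),
      (s a W' hW ha).restrict h = s a W'' (h.trans hW) (h.trans ha))
    (compat : ∀ a b W' (hW : W' ≤ W) (ha : W' ≤ P a) (hb : W' ≤ P b), s a W' hW ha = s b W' hW hb) :
    ∃ S : Sec c W, ∀ a W' (hW : W' ≤ W) (ha : W' ≤ P a), S.restrict hW = s a W' hW ha := by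
  have key : ∀ i V (hV : V ≤ W) (hi : V ≤ c.U i), ∃! x : Γ(X, V), ∀ a V' (h : V' ≤ V) (ha : V' ≤ P a),
      res h x = (s a V' (h.trans hV) ha).val i V' le_rfl (h.trans hi) := fun i V hV hi =>
    sections_glue P (hV.trans hP)
      (fun a V' h ha => (s a V' (h.trans hV) ha).val i V' le_rfl (h.trans hi))
      (fun a V' V'' h hV' ha => by
        rw [res_val, ← nat a V' V'' h _ ha, restrict_val])
      (fun a b V' h ha hb => by rw [compat a b V' (h.trans hV) ha hb])
  let S : Sec c W :=
    { val := fun i V hV hi => (key i V hV hi).exists.choose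
      res_val := fun i V V' h hV hi => by
        refine sections_ext P ((h.trans hV).trans hP) fun a V'' h' ha => ?_
        rw [res_res, (key i V hV hi).exists.choose_spec a V'' (h'.trans h) ha,
          (key i V' (h.trans hV) (h.trans hi)).exists.choose_spec a V'' h' ha]
      g_val := fun i j V hV hi hj => by
        refine sections_ext P (hV.trans hP) fun a V' h ha => ?_
        rw [map_mul, (key j V hV hj).exists.choose_spec a V' h ha,
          (key i V hV hi).exists.choose_spec a V' h ha, Cocycle.res_g, g_val] }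
  refine ⟨S, fun a W' hW ha => ext fun i V hV hi => ?_⟩
  have h1 := (key i V (hV.trans hW) hi).exists.choose_spec a V le_rfl (hV.trans ha)
  rw [res_self] at h1
  change (key i V (hV.trans hW) hi).exists.choose = _
  rw [h1, ← nat a W' V hV hW ha, restrict_val]

/-- On an affine open, a local section times a power of the function extends. -/
theorem exists_extend_pow {α : Type w} [Finite α] {V : X.Opens} (hV : IsAffineOpen V)
    (h : α → Γ(X, V)) (hcov : V ≤ ⨆ a, X.basicOpen (h a)) (ix : α → ι)
    (hix : ∀ a, X.basicOpen (h a) ≤ c.U (ix a)) (m : α) :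
    ∃ (N : ℕ) (G : Sec c V), ∀ W (hW : W ≤ X.basicOpen (h m)),
      G.restrict (hW.trans (X.basicOpen_le _)) =
        res (hW.trans (X.basicOpen_le _)) (h m ^ N) • gen c (ix m) W (hW.trans (hix m)) := by
  classical
  cases nonempty_fintype α
  let P : α → X.Opens := fun a => X.basicOpen (h a)
  have hPV : ∀ a, P a ≤ V := fun a => X.basicOpen_le _
  have hQ : ∀ {U : X.Opens} (hU : U ≤ V), X.basicOpen (res hU (h m)) = U ⊓ P m := fun hU =>
    X.basicOpen_res (h m) (homOfLE hU).op
  -- coordinates of the generator on each chart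
  have hext : ∀ a, ∃ (n : ℕ) (x : Γ(X, P a)), res (inf_le_left : P a ⊓ P m ≤ P a) x =
      res (inf_le_left.trans (hPV a)) (h m) ^ n *
        c.g (ix a) (ix m) (P a ⊓ P m) (inf_le_left.trans (hix a)) (inf_le_right.trans (hix m)) := by
    intro a
    have := (hV.basicOpen (h a)).isLocalization_of_eq_basicOpen (res (hPV a) (h m))
      (homOfLE inf_le_left) (hQ (hPV a)).symm
    letI := (X.presheaf.map (homOfLE (inf_le_left : P a ⊓ P m ≤ P a)).op).hom.toAlgebra
    obtain ⟨n, x, hx⟩ := IsLocalization.Away.surj (S := Γ(X, P a ⊓ P m)) (res (hPV a) (h m))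
      (c.g (ix a) (ix m) _ (inf_le_left.trans (hix a)) (inf_le_right.trans (hix m)))
    refine ⟨n, x, ?_⟩
    change c.g _ _ _ _ _ * res _ (res (hPV a) (h m)) ^ n = res _ x at hx
    rw [← hx, res_res, mul_comm]
  choose n x hx using hext
  let N₀ := Finset.univ.sup n
  obtain ⟨y, hy⟩ : ∃ y : ∀ a, Γ(X, P a), ∀ a W (hWa : W ≤ P a) (hWm : W ≤ P m), res hWa (y a) =
      res (hWa.trans (hPV a)) (h m) ^ N₀ *
        c.g (ix a) (ix m) W (hWa.trans (hix a)) (hWm.trans (hix m)) := by
    refine ⟨fun a => res (hPV a) (h m) ^ (N₀ - n a) * x a, fun a W hWa hWm => ?_⟩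
    have h1 := congrArg (res (le_inf hWa hWm)) (hx a)
    simp only [map_mul, map_pow, res_res, Cocycle.res_g] at h1
    rw [map_mul, map_pow, res_res, h1, ← mul_assoc, ← pow_add,
      Nat.sub_add_cancel (Finset.le_sup (Finset.mem_univ a))]
  -- overlaps agree after multiplying by a further power
  have hov : ∀ a b, ∃ n : ℕ, res (inf_le_left.trans (hPV a)) (h m) ^ n *
      (res inf_le_left (y a) - c.g (ix a) (ix b) (P a ⊓ P b) (inf_le_left.trans (hix a))
        (inf_le_right.trans (hix b)) * res inf_le_right (y b)) = 0 := by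
    intro a b
    have hPab : IsAffineOpen (P a ⊓ P b) := by
      rw [show P a ⊓ P b = X.basicOpen (h a * h b) from (X.basicOpen_mul _ _).symm]
      exact hV.basicOpen _
    set U := P a ⊓ P b
    have := hPab.isLocalization_of_eq_basicOpen (res (inf_le_left.trans (hPV a)) (h m))
      (homOfLE (inf_le_left : U ⊓ P m ≤ U)) (hQ (U := U) (inf_le_left.trans (hPV a))).symm
    set z := res inf_le_left (y a) - c.g (ix a) (ix b) U (inf_le_left.trans (hix a))
        (inf_le_right.trans (hix b)) * res inf_le_right (y b)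
    have h0 : res (inf_le_left : U ⊓ P m ≤ U) z = 0 := by
      rw [map_sub, map_mul, res_res, res_res, Cocycle.res_g,
        hy a _ (inf_le_left.trans inf_le_left) inf_le_right,
        hy b _ (inf_le_left.trans inf_le_right) inf_le_right, mul_left_comm, c.g_mul, sub_self]
    letI := (X.presheaf.map (homOfLE (inf_le_left : U ⊓ P m ≤ U)).op).hom.toAlgebra
    obtain ⟨⟨_, n, rfl⟩, hn⟩ := (IsLocalization.map_eq_zero_iff
      (Submonoid.powers (res (inf_le_left.trans (hPV a)) (h m))) Γ(X, U ⊓ P m) z).mp h0
    exact ⟨n, hn⟩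
  choose n' hn' using hov
  let N₁ := Finset.univ.sup fun p : α × α => n' p.1 p.2
  have hzero : ∀ a b W (hWa : W ≤ P a) (hWb : W ≤ P b),
      res (hWa.trans (hPV a)) (h m) ^ N₁ * res hWa (y a) =
        c.g (ix a) (ix b) W (hWa.trans (hix a)) (hWb.trans (hix b)) *
          (res (hWb.trans (hPV b)) (h m) ^ N₁ * res hWb (y b)) := by
    intro a b W hWa hWb
    have h1 := congrArg (res (le_inf hWa hWb)) (hn' a b)
    simp only [map_mul, map_pow, map_sub, map_zero, res_res, Cocycle.res_g] at h1
    have hle : n' a b ≤ N₁ := Finset.le_sup (f := fun p : α × α => n' p.1 p.2) (Finset.mem_univ (a, b))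
    rw [← sub_eq_zero, ← Nat.sub_add_cancel hle, pow_add]
    calc _ = res (hWa.trans (hPV a)) (h m) ^ (N₁ - n' a b) * (res (hWa.trans (hPV a)) (h m) ^ n' a b *
        (res hWa (y a) - c.g (ix a) (ix b) W (hWa.trans (hix a)) (hWb.trans (hix b)) *
          res hWb (y b))) := by ring
      _ = 0 := by rw [h1, mul_zero]
  let s : ∀ a W', W' ≤ V → W' ≤ P a → Sec c W' := fun a W' hW' ha =>
    (res hW' (h m) ^ N₁ * res ha (y a)) • gen c (ix a) W' (ha.trans (hix a))
  obtain ⟨G, hG⟩ := exists_glue (c := c) P hcov s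
    (fun a W' W'' h' hW ha => ext fun i U hU hi => by simp [s])
    (fun a b W' hW ha hb => by
      simp only [s]
      rw [hzero a b W' ha hb]
      refine ext fun i U hU hi => ?_
      simp only [smul_val, gen_val, map_mul, map_pow, res_res, Cocycle.res_g]
      rw [← c.g_mul i (ix a) (ix b) U hi (hU.trans (ha.trans (hix a))) (hU.trans (hb.trans (hix b)))]
      ring)
  refine ⟨N₁ + N₀, G, fun W hW => ?_⟩
  rw [hG m W _ hW]
  simp only [s]
  rw [hy m W hW hW, Cocycle.g_self, mul_one, map_pow, pow_add]

/-- A dual basis over an affine open. -/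
theorem exists_dualBasis (c : Cocycle X ι) {V : X.Opens} (hV : IsAffineOpen V) :
    ∃ (n : ℕ) (G : Fin n → Sec c V) (H : Fin n → Sec c.inv V),
      ∑ l, pair (H l) (G l) = 1 := by
  classical
  have hpt : ∀ x : V, ∃ (f : Γ(X, V)) (i : ι), (x : X) ∈ X.basicOpen f ∧ X.basicOpen f ≤ c.U i := by
    intro x
    obtain ⟨i, hi⟩ := c.cover (x : X)
    obtain ⟨f, hf, hxf⟩ := hV.exists_basicOpen_le (⟨x, hi⟩ : c.U i) x.2
    exact ⟨f, i, hxf, hf⟩
  choose f ix hxf hf using hpt
  obtain ⟨t, ht⟩ := hV.isCompact.elim_finite_subcover (fun x => (X.basicOpen (f x) : Set X))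
    (fun x => (X.basicOpen (f x)).isOpen) fun x hx => Set.mem_iUnion.mpr ⟨⟨x, hx⟩, hxf _⟩
  have hcov : V ≤ ⨆ a : t, X.basicOpen (f a) := fun x hx => by
    obtain ⟨a, ha, hxa⟩ := Set.mem_iUnion₂.mp (ht hx)
    exact Opens.mem_iSup.mpr ⟨⟨a, ha⟩, hxa⟩
  choose N G hG using fun a : t => exists_extend_pow (c := c) hV (fun a : t => f a) hcov
    (fun a => ix a) (fun a => hf a) a
  choose M H hH using fun a : t => exists_extend_pow (c := c.inv) hV (fun a : t => f a) hcov
    (fun a => ix a) (fun a => hf a) a
  have hunit : ∀ a : t, IsUnit (res (X.basicOpen_le (f a)) (pair (H a) (G a))) := by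
    intro a
    rw [← pair_restrict, hG a _ le_rfl, hH a _ le_rfl, pair_smul_left, pair_smul_right, pair_gen,
      mul_one, map_pow, map_pow, ← pow_add]
    exact (RingedSpace.isUnit_res_basicOpen X.toRingedSpace (f a)).pow _
  have hle : ∀ a : t, X.basicOpen (f a) ≤ X.basicOpen (pair (H a) (G a)) := fun a => by
    rw [← inf_eq_left]
    exact (X.basicOpen_res _ (homOfLE (X.basicOpen_le (f a))).op).symm.trans
      (X.basicOpen_of_isUnit (hunit a))
  have hspan : Ideal.span (Set.range fun a : t => pair (H a) (G a)) = ⊤ := by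
    rw [← hV.iSup_basicOpen_eq_self_iff]
    refine le_antisymm (iSup_le fun _ => X.basicOpen_le _) (hcov.trans (iSup_le fun a => ?_))
    exact (hle a).trans (le_iSup_of_le ⟨_, a, rfl⟩ le_rfl)
  obtain ⟨b, hb⟩ := Ideal.mem_span_range_iff_exists_fun.mp
    (show (1 : Γ(X, V)) ∈ Ideal.span (Set.range fun a : t => pair (H a) (G a)) by
      rw [hspan]; trivial)
  let e := Fintype.equivFin t
  refine ⟨Fintype.card t, fun l => b (e.symm l) • G (e.symm l), fun l => H (e.symm l), ?_⟩
  simp only [pair_smul_right]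
  rw [e.symm.sum_comp (fun a => b a * pair (H a) (G a))]
  exact hb

end Sec

end Fermat.Agent.Jac
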