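import Fermat.Agent.Jac.Cocycle

/-!
Sections of the line bundle defined by a cocycle, and the sheaf of modules they form.
-/

set_option autoImplicit false
set_option linter.unusedVariables false

noncomputable section

open CategoryTheory AlgebraicGeometry TopologicalSpace Opposite

namespace Fermat.Agent.Jac

universe u w

variable {X : Scheme.{u}} {ι κ : Type u}

/-- A section over `W`: its coordinates in all local generators. -/
structure Sec (c : Cocycle X ι) (W : X.Opens) where
  val : ∀ i (V : X.Opens), V ≤ W → V ≤ c.U i → Γ(X, V)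
  res_val : ∀ i (V V' : X.Opens) (h : V' ≤ V) (hW : V ≤ W) (hi : V ≤ c.U i),
    res h (val i V hW hi) = val i V' (h.trans hW) (h.trans hi)
  g_val : ∀ i j (V : X.Opens) (hW : V ≤ W) (hi : V ≤ c.U i) (hj : V ≤ c.U j),
    c.g i j V hi hj * val j V hW hj = val i V hW hi

namespace Sec

attribute [simp] Sec.res_val

variable {c : Cocycle X ι} {W : X.Opens}

@[ext]
theorem ext {s t : Sec c W} (h : ∀ i V hW hi, s.val i V hW hi = t.val i V hW hi) : s = t := by
  obtain ⟨sv, _, _⟩ := s
  obtain ⟨tv, _, _⟩ := t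
  obtain rfl : sv = tv := by funext i V hW hi; exact h i V hW hi
  rfl

instance : Zero (Sec c W) := ⟨⟨fun _ _ _ _ => 0, by simp, by simp⟩⟩

instance : Add (Sec c W) :=
  ⟨fun s t => ⟨fun i V hW hi => s.val i V hW hi + t.val i V hW hi,
    fun i V V' h hW hi => by simp, fun i j V hW hi hj => by simp [mul_add, s.g_val, t.g_val]⟩⟩

instance : Neg (Sec c W) :=
  ⟨fun s => ⟨fun i V hW hi => -s.val i V hW hi, fun i V V' h hW hi => by simp,
    fun i j V hW hi hj => by simp [s.g_val]⟩⟩

instance : SMul Γ(X, W) (Sec c W) :=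
  ⟨fun r s => ⟨fun i V hW hi => res hW r * s.val i V hW hi, fun i V V' h hW hi => by simp,
    fun i j V hW hi hj => by rw [mul_left_comm, s.g_val]⟩⟩

@[simp] theorem zero_val (i : ι) (V : X.Opens) (hW hi) : (0 : Sec c W).val i V hW hi = 0 := rfl
@[simp] theorem add_val (s t : Sec c W) (i : ι) (V : X.Opens) (hW hi) :
    (s + t).val i V hW hi = s.val i V hW hi + t.val i V hW hi := rfl
@[simp] theorem neg_val (s : Sec c W) (i : ι) (V : X.Opens) (hW hi) :
    (-s).val i V hW hi = -s.val i V hW hi := rfl
@[simp] theorem smul_val (r : Γ(X, W)) (s : Sec c W) (i : ι) (V : X.Opens) (hW hi) :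
    (r • s).val i V hW hi = res hW r * s.val i V hW hi := rfl

instance : AddCommGroup (Sec c W) where
  add_assoc a b d := by ext; simp [add_assoc]
  zero_add a := by ext; simp
  add_zero a := by ext; simp
  add_comm a b := by ext; simp [add_comm]
  neg_add_cancel a := by ext; simp
  nsmul := nsmulRec
  zsmul := zsmulRec

instance : Module Γ(X, W) (Sec c W) where
  one_smul a := by ext; simp
  mul_smul r r' a := by ext; simp [mul_assoc]
  smul_zero r := by ext; simp
  smul_add r a b := by ext; simp [mul_add]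
  add_smul r r' a := by ext; simp [add_mul]
  zero_smul a := by ext; simp

/-- Restriction of sections. -/
def restrict {W' : X.Opens} (h : W' ≤ W) (s : Sec c W) : Sec c W' where
  val i V hW hi := s.val i V (hW.trans h) hi
  res_val i V V' h' hW hi := s.res_val i V V' h' _ hi
  g_val i j V hW hi hj := s.g_val i j V _ hi hj

@[simp] theorem restrict_val {W' : X.Opens} (h : W' ≤ W) (s : Sec c W) (i : ι) (V : X.Opens)
    (hW hi) : (s.restrict h).val i V hW hi = s.val i V (hW.trans h) hi := rfl

/-- The `i`-th local generator. -/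
def gen (c : Cocycle X ι) (i : ι) (W : X.Opens) (hW : W ≤ c.U i) : Sec c W where
  val j V hV hj := c.g j i V hj (hV.trans hW)
  res_val j V V' h hV hj := c.res_g ..
  g_val j l V hV hj hl := c.g_mul ..

@[simp] theorem gen_val (i : ι) (hW : W ≤ c.U i) (j : ι) (V : X.Opens) (hV hj) :
    (gen c i W hW).val j V hV hj = c.g j i V hj (hV.trans hW) := rfl

/-- A section is a generator when its coordinates are units. -/
def IsGen (s : Sec c W) : Prop := ∀ i V hW hi, IsUnit (s.val i V hW hi)

theorem isGen_gen (i : ι) (hW : W ≤ c.U i) : (gen c i W hW).IsGen :=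
  fun _ _ _ _ => c.isUnit_g ..

theorem IsGen.restrict {W' : X.Opens} (h : W' ≤ W) {s : Sec c W} (hs : s.IsGen) :
    (s.restrict h).IsGen := fun i V hW hi => hs i V _ hi

theorem ext_of_cover {α : Type w} (U : α → X.Opens) (hU : W ≤ iSup U) {s t : Sec c W}
    (h : ∀ a W' (hW : W' ≤ W), W' ≤ U a → s.restrict hW = t.restrict hW) : s = t := by
  ext i V hW hi
  refine sections_ext U (hW.trans hU) fun a V' hV' ha => ?_
  have h' := congrArg (fun q : Sec c V' => q.val i V' le_rfl (hV'.trans hi))
    (h a V' (hV'.trans hW) ha)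
  simpa using h'

/-- A section over the open of a trivialisation is a multiple of the generator. -/
theorem eq_smul_gen (i : ι) (hW : W ≤ c.U i) (s : Sec c W) :
    s = s.val i W le_rfl hW • gen c i W hW := by
  ext j V hV hj
  rw [smul_val, res_val, gen_val, mul_comm]
  exact (s.g_val j i V hV hj _).symm

theorem IsGen.exists_smul {s : Sec c W} (hs : s.IsGen) (t : Sec c W) :
    ∃! r : Γ(X, W), r • s = t := by
  have hcompat : ∀ i j V (hV : V ≤ W) (hi : V ≤ c.U i) (hj : V ≤ c.U j),
      t.val i V hV hi * ↑(hs i V hV hi).unit⁻¹ = t.val j V hV hj * ↑(hs j V hV hj).unit⁻¹ := by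
    intro i j V hV hi hj
    apply (hs i V hV hi).mul_right_cancel
    rw [mul_assoc, IsUnit.val_inv_mul, mul_one]
    conv_lhs => rw [← t.g_val i j V hV hi hj]
    conv_rhs => rw [← s.g_val i j V hV hi hj]
    rw [mul_assoc, mul_left_comm _ (c.g i j V hi hj), IsUnit.val_inv_mul, mul_one, mul_comm]
  obtain ⟨r, hr, hru⟩ := sections_glue c.U (c.le_iSup W)
    (fun i V hV hi => t.val i V hV hi * ↑(hs i V hV hi).unit⁻¹)
    (fun i V V' h hV hi => by
      apply (hs i V' (h.trans hV) (h.trans hi)).mul_right_cancel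
      rw [mul_assoc _ _ (s.val i V' _ _), IsUnit.val_inv_mul, mul_one,
        ← s.res_val i V V' h hV hi, ← map_mul, mul_assoc, IsUnit.val_inv_mul, mul_one, res_val])
    hcompat
  refine ⟨r, ?_, fun r' hr' => hru r' fun i V hV hi => ?_⟩
  · ext i V hV hi
    rw [smul_val, hr i V hV hi, mul_assoc, IsUnit.val_inv_mul, mul_one]
  · rw [← congrArg (fun q => Sec.val q i V hV hi) hr', smul_val, mul_assoc,
      IsUnit.mul_val_inv, mul_one]

theorem IsGen.smul_bijective {s : Sec c W} (hs : s.IsGen) :
    Function.Bijective (fun r : Γ(X, W) => r • s) :=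
  Function.bijective_iff_existsUnique _ |>.mpr hs.exists_smul

/-- Transport of sections along a comparison: existence. -/
theorem exists_mapComp {c' : Cocycle X κ} (e : Cocycle.Comparison c c') (s : Sec c W) (a : κ)
    (V : X.Opens) (hV : V ≤ W) (ha : V ≤ c'.U a) :
    ∃! x : Γ(X, V), ∀ i V' (h : V' ≤ V) (hi : V' ≤ c.U i),
      res h x = e.symm.φ a i V' (h.trans ha) hi * s.val i V' (h.trans hV) hi :=
  sections_glue c.U (c.le_iSup V)
    (fun i V' h hi => e.symm.φ a i V' (h.trans ha) hi * s.val i V' (h.trans hV) hi)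
    (fun i V' V'' h hV' hi => by simp)
    (fun i j V' h hi hj => by
      rw [← s.g_val i j V' _ hi hj, ← mul_assoc, e.symm.φ_g])

/-- Transport of sections along a comparison. -/
def mapComp {c' : Cocycle X κ} (e : Cocycle.Comparison c c') (s : Sec c W) : Sec c' W where
  val a V hV ha := (exists_mapComp e s a V hV ha).exists.choose
  res_val a V V' h hV ha := sections_ext c.U (c.le_iSup V') fun i V'' h' hi => by
    rw [res_res, (exists_mapComp e s a V hV ha).exists.choose_spec i V'' (h'.trans h) hi,
      (exists_mapComp e s a V' (h.trans hV) (h.trans ha)).exists.choose_spec i V'' h' hi]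
  g_val a b V hV ha hb := sections_ext c.U (c.le_iSup V) fun i V' h hi => by
    rw [map_mul, (exists_mapComp e s a V hV ha).exists.choose_spec i V' h hi,
      (exists_mapComp e s b V hV hb).exists.choose_spec i V' h hi, Cocycle.res_g, ← mul_assoc,
      e.symm.g_φ]

theorem mapComp_spec {c' : Cocycle X κ} (e : Cocycle.Comparison c c') (s : Sec c W) (a : κ)
    (V : X.Opens) (hV : V ≤ W) (ha : V ≤ c'.U a) (i : ι) (hi : V ≤ c.U i) :
    e.φ i a V hi ha * (mapComp e s).val a V hV ha = s.val i V hV hi := by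
  have h := (exists_mapComp e s a V hV ha).exists.choose_spec i V le_rfl hi
  rw [res_self] at h
  change _ * (exists_mapComp e s a V hV ha).exists.choose = _
  rw [h, ← mul_assoc]
  change e.φ i a V hi ha * ↑(e.isUnit_φ i a V hi ha).unit⁻¹ * _ = _
  rw [IsUnit.mul_val_inv, one_mul]

theorem mapComp_add {c' : Cocycle X κ} (e : Cocycle.Comparison c c') (s t : Sec c W) :
    mapComp e (s + t) = mapComp e s + mapComp e t := by
  ext a V hV ha
  refine sections_ext c.U (c.le_iSup V) fun i V' h hi => ?_
  rw [add_val, map_add, res_val, res_val, res_val]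
  apply (e.isUnit_φ i a V' hi (h.trans ha)).mul_left_cancel
  rw [mul_add, mapComp_spec, mapComp_spec, mapComp_spec, add_val]

theorem mapComp_smul {c' : Cocycle X κ} (e : Cocycle.Comparison c c') (r : Γ(X, W)) (s : Sec c W) :
    mapComp e (r • s) = r • mapComp e s := by
  ext a V hV ha
  refine sections_ext c.U (c.le_iSup V) fun i V' h hi => ?_
  rw [smul_val, map_mul, res_val, res_val, res_res]
  apply (e.isUnit_φ i a V' hi (h.trans ha)).mul_left_cancel
  rw [mul_left_comm, mapComp_spec, mapComp_spec, smul_val]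

theorem mapComp_restrict {c' : Cocycle X κ} (e : Cocycle.Comparison c c') {W' : X.Opens}
    (hW' : W' ≤ W) (s : Sec c W) : mapComp e (s.restrict hW') = (mapComp e s).restrict hW' := by
  ext a V hV ha
  refine sections_ext c.U (c.le_iSup V) fun i V' h hi => ?_
  rw [res_val, res_val]
  apply (e.isUnit_φ i a V' hi (h.trans ha)).mul_left_cancel
  rw [mapComp_spec, restrict_val, restrict_val, mapComp_spec]

theorem mapComp_symm {c' : Cocycle X κ} (e : Cocycle.Comparison c c') (s : Sec c W) :
    mapComp e.symm (mapComp e s) = s := by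
  ext i V hV hi
  refine sections_ext c'.U (c'.le_iSup V) fun a V' h ha => ?_
  rw [res_val, res_val]
  apply (e.symm.isUnit_φ a i V' ha (h.trans hi)).mul_left_cancel
  rw [mapComp_spec, ← mapComp_spec e s a V' (h.trans hV) ha i (h.trans hi), ← mul_assoc]
  change _ = ↑(e.isUnit_φ i a V' (h.trans hi) ha).unit⁻¹ * e.φ i a V' (h.trans hi) ha * _
  rw [IsUnit.val_inv_mul, one_mul]

end Sec

/-- A cocycle has class `1` iff it has a global generator. -/
theorem Pic.mk_eq_one_iff {c : Cocycle X ι} : Pic.mk c = 1 ↔ ∃ s : Sec c ⊤, s.IsGen := by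
  rw [Pic.one_def, Pic.mk_eq_mk_iff]
  constructor
  · rintro ⟨e⟩
    exact ⟨⟨fun i V _ hi => e.φ i ⟨⟩ V hi le_top, fun i V V' h _ hi => e.res_φ ..,
      fun i j V _ hi hj => e.g_φ ..⟩, fun i V _ hi => e.isUnit_φ ..⟩
  · rintro ⟨s, hs⟩
    exact ⟨{
      φ := fun i _ V hi _ => s.val i V le_top hi
      res_φ := fun i _ V V' h hi _ => s.res_val ..
      isUnit_φ := fun i _ V hi _ => hs ..
      g_φ := fun i j _ V hi hj _ => s.g_val ..
      φ_g := fun i _ _ V hi _ _ => mul_one _ }⟩

end Fermat.Agent.Jac
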