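import Fermat.Agent.Jac.LineSections
import Fermat.Prelude.Def_AlgebraicGeometry_RelativePicardFunctor

/-!
The invertible sheaf of modules attached to a cocycle.
-/

set_option autoImplicit false
set_option linter.unusedVariables false

noncomputable section

open CategoryTheory AlgebraicGeometry TopologicalSpace Opposite

namespace Fermat.Agent.Jac

universe u

variable {X : Scheme.{u}} {ι κ : Type u}

/-- The presheaf of abelian groups of sections of a cocycle. -/
def secPresheaf (c : Cocycle X ι) : TopCat.Presheaf Ab.{u} X where
  obj W := AddCommGrpCat.of (Sec c W.unop)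
  map {W W'} f := AddCommGrpCat.ofHom
    { toFun := Sec.restrict (leOfHom f.unop)
      map_zero' := rfl
      map_add' := fun _ _ => rfl }
  map_id W := rfl
  map_comp f g := rfl

instance (c : Cocycle X ι) (W : (TopologicalSpace.Opens X)ᵒᵖ) :
    Module (X.ringCatSheaf.obj.obj W) ((secPresheaf c).obj W) :=
  inferInstanceAs (Module Γ(X, W.unop) (Sec c W.unop))

/-- The presheaf of modules of sections. -/
def secPresheafOfModules (c : Cocycle X ι) : X.PresheafOfModules :=
  PresheafOfModules.ofPresheaf (secPresheaf c) fun W W' f r s =>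
    Sec.ext fun i V hW hi => by
      change res (hW.trans (leOfHom f.unop)) r * _ = res hW (res (leOfHom f.unop) r) * _
      exact congrArg (· * _) (res_res hW (leOfHom f.unop) r).symm

theorem secPresheaf_isSheaf (c : Cocycle X ι) : (secPresheaf c).IsSheaf := by
  rw [TopCat.Presheaf.isSheaf_iff_isSheafUniqueGluing]
  intro α U sf hsf
  have hag : ∀ a b i V (ha : V ≤ U a) (hb : V ≤ U b) (hi : V ≤ c.U i),
      (sf a).val i V ha hi = (sf b).val i V hb hi := fun a b i V ha hb hi =>
    congrArg (fun s : Sec c (U a ⊓ U b) => s.val i V (le_inf ha hb) hi) (hsf a b)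
  have key : ∀ i V (hV : V ≤ iSup U) (hi : V ≤ c.U i), ∃! x : Γ(X, V),
      ∀ a V' (h : V' ≤ V) (ha : V' ≤ U a), res h x = (sf a).val i V' ha (h.trans hi) :=
    fun i V hV hi => sections_glue U hV (fun a V' h ha => (sf a).val i V' ha (h.trans hi))
      (fun a V' V'' h hV' ha => (sf a).res_val ..)
      (fun a b V' h ha hb => hag a b i V' ha hb _)
  let s : Sec c (iSup U) :=
    { val := fun i V hV hi => (key i V hV hi).exists.choose
      res_val := fun i V V' h hV hi => sections_ext U (h.trans hV) fun a V'' h' ha => by
        rw [res_res, (key i V hV hi).exists.choose_spec a V'' (h'.trans h) ha,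
          (key i V' (h.trans hV) (h.trans hi)).exists.choose_spec a V'' h' ha]
      g_val := fun i j V hV hi hj => sections_ext U hV fun a V' h ha => by
        rw [map_mul, Cocycle.res_g, (key i V hV hi).exists.choose_spec a V' h ha,
          (key j V hV hj).exists.choose_spec a V' h ha]
        exact (sf a).g_val .. }
  refine ⟨s, fun a => Sec.ext fun i V hV hi => ?_, fun t ht => Sec.ext fun i V hV hi => ?_⟩
  · have h := (key i V (hV.trans (le_iSup U a)) hi).exists.choose_spec a V le_rfl hV
    rw [res_self] at h
    exact h
  · refine sections_ext U hV fun a V' h ha => ?_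
    refine (Sec.res_val t i V V' h hV hi).trans ?_
    refine Eq.trans ?_ (Sec.res_val s i V V' h hV hi).symm
    have h1 := congrArg (fun q : Sec c (U a) => q.val i V' ha (h.trans hi)) (ht a)
    have h2 := (key i V' (h.trans hV) (h.trans hi)).exists.choose_spec a V' le_rfl ha
    rw [res_self] at h2
    exact h1.trans h2.symm

/-- The sheaf of modules of sections of a cocycle. -/
def secModules (c : Cocycle X ι) : X.Modules where
  val := secPresheafOfModules c
  isSheaf := secPresheaf_isSheaf c

/-- Elements of `Γ(secModules c, W)` as sections. -/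
def toSec {c : Cocycle X ι} {W : X.Opens} (s : Γ(secModules c, W)) : Sec c W := s

/-- Sections as elements of `Γ(secModules c, W)`. -/
def ofSec {c : Cocycle X ι} {W : X.Opens} (s : Sec c W) : Γ(secModules c, W) := s

@[simp] theorem toSec_ofSec {c : Cocycle X ι} {W : X.Opens} (s : Sec c W) :
    toSec (ofSec s) = s := rfl

@[simp] theorem ofSec_toSec {c : Cocycle X ι} {W : X.Opens} (s : Γ(secModules c, W)) :
    ofSec (toSec s) = s := rfl

theorem toSec_smul {c : Cocycle X ι} {W : X.Opens} (r : Γ(X, W)) (s : Γ(secModules c, W)) :
    toSec (r • s) = r • toSec s := rfl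

theorem toSec_map {c : Cocycle X ι} {W W' : X.Opens} (h : W' ≤ W) (s : Γ(secModules c, W)) :
    toSec ((secModules c).presheaf.map (homOfLE h).op s) = (toSec s).restrict h := rfl

end Fermat.Agent.Jac
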